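import Fermat.Agent.TSide.GammaCurve
import Fermat.Agent.Star.WidthInst

/-!
# (GAMMA), unconditional
-/

set_option autoImplicit false
set_option linter.unusedSectionVars false
set_option linter.style.haveILetI false

open ModularCurve HahnSeries Module AlgebraicCurve
open Fermat.Agent.FF Fermat.Agent.LTF.BLR Fermat.Agent.LTF.Gal Fermat.Agent.LTF.TwoDiv
open Fermat.Agent.S53norm (HasMat M2)

noncomputable section

namespace Fermat.Agent.TSide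

/-- `GQ` -/
local notation "GQ" => (AlgebraicClosure ℚ ≃ₐ[ℚ] AlgebraicClosure ℚ)

/-- All nodes have width one if the level has a prime factor `≡ 11 (mod 12)`. -/
theorem widthHyp : WidthHyp := by
  intro M q _ hq hqM A hA _ _ hr n _ H3 _ hM P C hP
  obtain ⟨r, hr, hrM, hr12⟩ := hr
  haveI : IsFF (AlgebraicClosure ℚ) (modularFunctionFieldBar (M * q)) := TwoGauss.isFF_m
  rw [Star.Inst.width_eq_one hq hqM hA H3 hr hrM hr12 C hP]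
  exact Nat.coprime_one_right n

/-- **(GAMMA)**: removal of `q` from the level without loss. -/
theorem gamma {M q : ℕ} [NeZero M] (hq : q.Prime) (hqM : ¬ q ∣ M)
    {A : ValuationSubring (AlgebraicClosure ℚ)} (hA : A.LiesOverPrime q) (hq2 : q ≠ 2)
    (hr : ∃ r : ℕ, r.Prime ∧ r ∣ M ∧ r % 12 = 11)
    {k : ℕ} {S : Set ℕ} (hS : S.Finite)
    (hNS : ∀ ℓ : ℕ, ℓ.Prime → ℓ ∣ M * q * 2 → ℓ ∈ S) {a : ℕ → ℤ}
    {ρ : GQ →* Matrix (Fin 2) (Fin 2) (ZMod (2 ^ k))}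
    (hρ : ∃ L : IntermediateField ℚ (AlgebraicClosure ℚ), FiniteDimensional ℚ L ∧
      ∀ σ : GQ, (∀ x ∈ L, σ x = x) → ρ σ = 1)
    (hfrob : ∀ ℓ : ℕ, ℓ.Prime → ℓ ∉ S → ∀ A : ValuationSubring (AlgebraicClosure ℚ),
      A.LiesOverPrime ℓ → ∀ φ : GQ, A.IsFrobeniusAt φ ℓ →
        (ρ φ).trace = ((a ℓ : ℤ) : ZMod (2 ^ k)) ∧ (ρ φ).det = ((ℓ : ℕ) : ZMod (2 ^ k)))
    (hspan : Submodule.span (ZMod (2 ^ k)) (Set.range ρ) = ⊤)
    (hI : ∀ σ ∈ A.inertiaSubgroupIn ℚ, ρ σ = 1) {φ : GQ} (hφ : A.IsFrobeniusAt φ q)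
    (hφ' : ∃ i j : Fin 2, i ≠ j ∧ IsUnit (ρ φ j i)) {L : ℕ} [NeZero L] (hL : L = M * q)
    {x : JZero L} (hx : x ∈ eigJ L S a (2 ^ k)) (hx' : 2 ^ (k - 1) • x ≠ 0) :
    ∃ y ∈ eigJ M S a (2 ^ k), 2 ^ (k - 1) • y ≠ 0 :=
  gamma_of_width widthHyp hq hqM hA hq2 hr hS hNS hρ hfrob hspan hI hφ hφ' hL hx hx'

/-- **(GAMMA) for a good curve**, unconditional: removal of the auxiliary primes `q ∈ Q` (with
`ρ̄(Frob_q) ≠ 1`) from the level without loss. -/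
theorem gamma_good {W : WeierstrassCurve ℤ} {hΔ : (W.map (Int.castRingHom ℚ)).Δ ≠ 0}
    {r : GQ →* M2 ℤ_[2]} (hGC : LTF.GoodCurve W)
    (hr : HasMat ((Tate.tateRep (W.map (Int.castRingHom ℚ)) hΔ 2).ρ : GQ → _) r)
    {N : ℕ} [NeZero N] (hN : N.primeFactors = W.Δ.natAbs.primeFactors) {k : ℕ} (Q : Finset ℕ)
    (hQ : ∀ q ∈ Q, q.Prime ∧ q ∉ W.Δ.natAbs.primeFactors ∧
      ∃ A : ValuationSubring (AlgebraicClosure ℚ), A.LiesOverPrime q ∧ ∃ φ : GQ,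
        A.IsFrobeniusAt φ q ∧ redTwo r φ ≠ 1)
    {S : Set ℕ} (hS : S.Finite) (hSW : ∀ ℓ ∈ W.Δ.natAbs.primeFactors, ℓ ∈ S)
    (hSQ : ∀ q ∈ Q, q ∈ S) {L : ℕ} [NeZero L] (hL : L = N * ∏ q ∈ Q, q) {x : JZero L}
    (hx : x ∈ eigJ L S W.apOfModel (2 ^ k)) (hx' : 2 ^ (k - 1) • x ≠ 0) :
    ∃ y ∈ eigJ N S W.apOfModel (2 ^ k), 2 ^ (k - 1) • y ≠ 0 :=
  gamma_curve widthHyp hGC hr hN Q hQ hS hSW hSQ hL hx hx'

end Fermat.Agent.TSide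

end
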