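import Fermat.Agent.TSide.Spl
import Fermat.Agent.HeckeComm.Commute

/-!
# The splitting map for `J₀(m q)` at `q`: final form
-/

set_option autoImplicit false
set_option linter.unusedSectionVars false
set_option linter.style.haveILetI false

open ModularCurve HahnSeries Module AlgebraicCurve
open scoped IntermediateField
open Fermat.Agent.GaussVal Fermat.Agent.FF Fermat.Agent.RR Fermat.Agent.TEll
open scoped Fermat.Agent.GaussVal
open Fermat.Agent.TwoGauss (wq)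

noncomputable section

namespace Fermat.Agent.TSide

section Final

variable {A : ValuationSubring (AlgebraicClosure ℚ)} {q m : ℕ} [NeZero m]
  (hq : q.Prime) (hm : ¬ q ∣ m) (hA : A.LiesOverPrime q)

/-- The endomorphism `T_ℓ - (ℓ + 1)` of `J₀(N)`. -/
def etaOp (N : ℕ) [NeZero N] (ℓ : Nat.Primes) : JZero N →+ JZero N :=
  (heckeOperatorBar N ℓ - ((ℓ : ℕ) + 1) • (1 : Module.End ℤ (JZero N))).toAddMonoidHom

theorem etaOp_apply (N : ℕ) [NeZero N] (ℓ : Nat.Primes) (x : JZero N) :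
    etaOp N ℓ x = heckeOperatorBar N ℓ x - ((ℓ : ℕ) + 1) • x := rfl

theorem etaOp_comm (N : ℕ) [NeZero N] (ℓ₀ ℓ : Nat.Primes) (x : JZero N) :
    (heckeCorr N ℓ).t (etaOp N ℓ₀ x) = etaOp N ℓ₀ ((heckeCorr N ℓ).t x) := by
  rw [heckeCorr_t, heckeCorr_t, etaOp_apply, etaOp_apply, map_sub, map_nsmul]
  congr 1
  exact LinearMap.congr_fun (HeckeComm.heckeOperatorsCommuteBar N ℓ ℓ₀) x

/-- The classes of order dividing `n` fixed by the inertia group at `A`. -/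
def unrTors (A : ValuationSubring (AlgebraicClosure ℚ)) (N : ℕ) [NeZero N] (n : ℕ) :
    AddSubgroup (JZero N) where
  carrier := {x | n • x = 0 ∧ ∀ σ ∈ A.inertiaSubgroupIn ℚ, σ • x = x}
  zero_mem' := ⟨smul_zero _, fun σ _ => smul_zero σ⟩
  add_mem' := fun {x y} hx hy => ⟨by rw [nsmul_add, hx.1, hy.1, add_zero],
    fun σ hσ => by rw [smul_add, hx.2 σ hσ, hy.2 σ hσ]⟩
  neg_mem' := fun {x} hx => ⟨by rw [neg_nsmul, hx.1, neg_zero],
    fun σ hσ => by rw [smul_neg, hx.2 σ hσ]⟩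

theorem mem_unrTors {N : ℕ} [NeZero N] {n : ℕ} {x : JZero N} :
    x ∈ unrTors A N n ↔ n • x = 0 ∧ ∀ σ ∈ A.inertiaSubgroupIn ℚ, σ • x = x := Iff.rfl

theorem hecke_mem_unrTors {N : ℕ} [NeZero N] {n : ℕ} {x : JZero N} (hx : x ∈ unrTors A N n)
    (ℓ : Nat.Primes) : heckeOperatorBar N ℓ x ∈ unrTors A N n := by
  refine ⟨?_, fun σ hσ => ?_⟩
  · rw [← map_nsmul, hx.1, map_zero]
  · rw [← HeckeComm.heckeOperatorBar_smul, hx.2 σ hσ]

/-- **[SPL]** The splitting map: the classes of order dividing `n`, unramified at `q`, map to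
`J₀(m)²`, compatibly with the Hecke operators; the kernel is toric. -/
theorem exists_splitting {n : ℕ} (hn : ¬ q ∣ n) (ℓ₀ : Nat.Primes) [Fact q.Prime]
    [CharP (IsLocalRing.ResidueField A) q]
    [IsFF (IsLocalRing.ResidueField A) (modularFunctionFieldFullC (IsLocalRing.ResidueField A) m)]
    (H : AddSubgroup (JZero (m * q)))
    (hU : ∀ x ∈ H, etaOp (m * q) ℓ₀ x ∈ (TwoGauss.twoComp hq hm hA).J0 n) :
    ∃ spl : H →+ JZero m × JZero m,
      (∀ ℓ : Nat.Primes, ¬ (ℓ : ℕ) ∣ m * q → ∀ (x : H)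
        (hx : heckeOperatorBar (m * q) ℓ (x : JZero (m * q)) ∈ H),
          spl ⟨_, hx⟩ = (heckeOperatorBar m ℓ (spl x).1, heckeOperatorBar m ℓ (spl x).2)) ∧
      ∀ x : H, spl x = 0 → etaOp (m * q) ℓ₀ x ∈ (TwoGauss.twoComp hq hm hA).TT n := by
  have H3 := GoodRed.degThm_res hq hA (NeZero.ne m) hm
  have H2 := GoodRed.genus_le_all hq hA m hm
  haveI : IsAlgClosed (IsLocalRing.ResidueField A) := inferInstance
  have hn' : (n : IsLocalRing.ResidueField A) ≠ 0 := by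
    rwa [Ne, CharP.cast_eq_zero_iff (IsLocalRing.ResidueField A) q]
  have hn0 : n ≠ 0 := by rintro rfl; simp at hn
  have hnK : (n : AlgebraicClosure ℚ) ≠ 0 := by exact_mod_cast hn0
  obtain ⟨spl, h1, h2⟩ := exists_spl (D := TwoGauss.mkData hq hm hA H3 H2) hq.pos H2 hnK hn' H
    (etaOp (m * q) ℓ₀) hU
  refine ⟨spl, fun ℓ hℓ x hx => ?_, h2⟩
  have hℓm : ¬ (ℓ : ℕ) ∣ m := fun h => hℓ (h.mul_right q)
  exact Prod.ext
    (spl_hecke (D := TwoGauss.mkData hq hm hA H3 H2) H2 hn' (etaOp (m * q) ℓ₀)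
      (heckeCorr (m * q) ℓ) (heckeCorr m ℓ) (Sl hq hA H3 ℓ hℓm)
      (redF_fst hq hm hA H3 H2 ℓ hℓm hℓ) (redF_Gm hq hA H3 ℓ hℓm)
      (etaOp_comm (m * q) ℓ₀ ℓ) (h1 x).1 (h1 ⟨_, hx⟩).1)
    (spl_hecke (D := TwoGauss.mkData hq hm hA H3 H2) H2 hn' (etaOp (m * q) ℓ₀)
      (heckeCorr (m * q) ℓ) (heckeCorr m ℓ) (Sl hq hA H3 ℓ hℓm)
      (redF_snd hq hm hA H3 H2 ℓ hℓm hℓ) (redF_Gm hq hA H3 ℓ hℓm)
      (etaOp_comm (m * q) ℓ₀ ℓ) (h1 x).2 (h1 ⟨_, hx⟩).2)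

end Final

end Fermat.Agent.TSide

end
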