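import Fermat.Agent.TSide.HeckeCg

/-!
# The two components of a two-component reduction datum
-/

set_option autoImplicit false
set_option linter.unusedSectionVars false

open AlgebraicCurve WithZero Module
open scoped IntermediateField
open Fermat.Agent.RR Fermat.Agent.Deuring Fermat.Agent.FF Fermat.Agent.TwoComp
open Fermat.Agent.QX4 (Split exists_ord_eq_of_nsmul_eq_zero mk_eq_zero_iff)

noncomputable section

namespace Fermat.Agent.TSide

variable {K Fm F k F' : Type*} [Field K] [Field Fm] [Algebra K Fm] [Field F]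
    [Algebra K F] [Field k] [Field F'] [Algebra k F'] {q : ℕ}
    [IsFF K F] [IsFF k F'] [IsFF K Fm] [IsAlgClosed K] [IsAlgClosed k]
    (D : Data K Fm F k F' q) (hq : 0 < q)

/-- the first component -/
def comp₁ : Comp K F k F' where
  A := D.G.A
  res := D.G.res
  O := D.O₁
  ρ := D.ρ₁
  ρ_eq_zero_iff := D.ρ₁_eq_zero_iff
  mem_O_iff := D.mem_O₁_iff
  ρ_algebraMap := D.ρ₁_algebraMap
  scale f hf := by
    obtain ⟨c, hc, h, h'⟩ := Data.exists_unit₁ (D := D) hq hf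
    exact ⟨c, hc, h, h'⟩

/-- the second component -/
def comp₂ : Comp K F k F' where
  A := D.G.A
  res := D.G.res
  O := D.O₂
  ρ := D.ρ₂
  ρ_eq_zero_iff := D.ρ₂_eq_zero_iff
  mem_O_iff := D.mem_O₂_iff
  ρ_algebraMap := D.ρ₂_algebraMap
  scale f hf := by
    obtain ⟨c, hc, h, h'⟩ := Data.exists_unit₂ (D := D) hq hf
    exact ⟨c, hc, h, h'⟩

variable {D}

theorem redC_of_mem_J0 {n : ℕ} (hn : 0 < n) {x : Pic0 K F} (hx : x ∈ D.J0 n) :
    (∃ y, (comp₁ D hq).RedC n x y) ∧ ∃ y, (comp₂ D hq).RedC n x y := by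
  obtain ⟨E, φ, rfl, h, h1, h2⟩ := hx
  constructor
  · refine ⟨Pic0.mk ⟨_, Data.cdiv_mem hn h1⟩, E, φ, ⟨_, Data.cdiv_mem hn h1⟩, (D.R.ρ φ).1, rfl,
      rfl, ⟨h.fst, φ.2.1, rfl⟩, h.ord, fun w => ?_⟩
    have h3 := DFunLike.congr_fun (Data.nsmul_cdiv hn h1) w
    rw [Finsupp.smul_apply, nsmul_eq_mul, div_apply] at h3
    exact h3.symm
  · refine ⟨Pic0.mk ⟨_, Data.cdiv_mem hn h2⟩, E, φ, ⟨_, Data.cdiv_mem hn h2⟩, (D.R.ρ φ).2, rfl,
      rfl, ⟨h.snd, φ.2.2, rfl⟩, h.ord, fun w => ?_⟩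
    have h3 := DFunLike.congr_fun (Data.nsmul_cdiv hn h2) w
    rw [Finsupp.smul_apply, nsmul_eq_mul, div_apply] at h3
    exact h3.symm

theorem mem_TT_of_redC {n : ℕ} (hn : 0 < n) {x : Pic0 K F} (h1 : (comp₁ D hq).RedC n x 0)
    (h2 : (comp₂ D hq).RedC n x 0) : x ∈ D.TT n :=
  ⟨(Comp.split_iff (C := comp₁ D hq) hn).mpr h1, (Comp.split_iff (C := comp₂ D hq) hn).mpr h2⟩

/-- **The splitting map**, abstract form: `U` maps the group `H` into the classes which have a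
reduction at both components; `T, Tm` are commuting Hecke correspondences. -/
theorem exists_spl (hg : genusFF K Fm ≤ genusFF k F') {n : ℕ} (hnK : (n : K) ≠ 0)
    (hn : (n : k) ≠ 0) (H : AddSubgroup (Pic0 K F)) (U : Pic0 K F →+ Pic0 K F)
    (hU : ∀ x ∈ H, U x ∈ D.J0 n) :
    ∃ spl : H →+ Pic0 K Fm × Pic0 K Fm,
      (∀ x : H, Cg (comp₁ D hq) D.G n (U x) (spl x).1 ∧ Cg (comp₂ D hq) D.G n (U x) (spl x).2) ∧
      ∀ x : H, spl x = 0 → U x ∈ D.TT n := by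
  classical
  obtain ⟨R, -⟩ := D.G.exists_redMap_of_le hg
  have hn0 : 0 < n := Nat.pos_of_ne_zero (by rintro rfl; simp at hn)
  have h1 : ∀ x : H, ∃ z : Pic0 K Fm × Pic0 K Fm, Cg (comp₁ D hq) D.G n (U x) z.1 ∧
      Cg (comp₂ D hq) D.G n (U x) z.2 := by
    intro x
    obtain ⟨h1, h2⟩ := redC_of_mem_J0 hq hn0 (hU x x.2)
    obtain ⟨z₁, hz₁⟩ := exists_cg R hg hnK hn h1
    obtain ⟨z₂, hz₂⟩ := exists_cg R hg hnK hn h2
    exact ⟨(z₁, z₂), hz₁, hz₂⟩
  choose s hs using h1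
  refine ⟨AddMonoidHom.mk' s fun x y => ?_, fun x => hs x, fun x hx => ?_⟩
  · have h3 := hs (x + y)
    rw [AddSubgroup.coe_add, map_add] at h3
    exact Prod.ext (h3.1.unique R hg hn ((hs x).1.add (hs y).1))
      (h3.2.unique R hg hn ((hs x).2.add (hs y).2))
  · have h3 := hs x
    rw [AddMonoidHom.mk'_apply] at hx
    rw [hx] at h3
    exact mem_TT_of_redC hq hn0 (h3.1.redC_zero hn0.ne') (h3.2.redC_zero hn0.ne')

/-- equivariance of the splitting map -/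
theorem spl_hecke (hg : genusFF K Fm ≤ genusFF k F') {n : ℕ} (hn : (n : k) ≠ 0)
    {C : Comp K F k F'} (U : Pic0 K F →+ Pic0 K F) (X : Corr K F) (Xm : Corr K Fm) (S : F' →* F')
    (hC : ∀ f g, C.RedF f g → C.RedF (X.T f) (S g))
    (hm : ∀ f g, (ofGauss D.G).RedF f g → (ofGauss D.G).RedF (Xm.T f) (S g))
    (hcomm : ∀ x, X.t (U x) = U (X.t x)) {x : Pic0 K F} {z z' : Pic0 K Fm}
    (h : Cg C D.G n (U x) z) (h' : Cg C D.G n (U (X.t x)) z') : z' = Xm.t z := by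
  obtain ⟨R, -⟩ := D.G.exists_redMap_of_le hg
  have hn0 : n ≠ 0 := by rintro rfl; simp at hn
  have h1 := Cg.hecke R D.G.res_surj hn0 X Xm S hC hm h
  rw [hcomm] at h1
  exact h'.unique R hg hn h1

end Fermat.Agent.TSide

end
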