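import Fermat.Agent.TSide.SplFinal
import Fermat.Agent.RibetE.Main
import Fermat.Agent.Star.InstGood
import Fermat.Agent.Star.InstUnit

/-!
# `(T_ℓ - ℓ - 1) x` has good reductions for unramified `x`
-/

set_option autoImplicit false
set_option linter.unusedSectionVars false
set_option linter.style.haveILetI false

open ModularCurve HahnSeries Module AlgebraicCurve
open scoped IntermediateField
open Fermat.Agent.GaussVal Fermat.Agent.FF Fermat.Agent.RR Fermat.Agent.TEll
open scoped Fermat.Agent.GaussVal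
open Fermat.Agent.Star Fermat.Agent.Star.Model Fermat.Agent.Star.Model.Pt

noncomputable section

namespace Fermat.Agent.TSide

variable {A : ValuationSubring (AlgebraicClosure ℚ)} {q m : ℕ} [NeZero m]
  [Fact q.Prime] [CharP (IsLocalRing.ResidueField A) q]
  (hq : q.Prime) (hm : ¬ q ∣ m) (hA : A.LiesOverPrime q)

theorem mem_J0_mkData (H3 : S18aux.DegThm (IsLocalRing.ResidueField A) m)
    (H2 : genusFF (AlgebraicClosure ℚ) (modularFunctionFieldBar m) ≤
      genusFF (IsLocalRing.ResidueField A)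
        (modularFunctionFieldFullC (IsLocalRing.ResidueField A) m))
    [IsAlgClosed (IsLocalRing.ResidueField A)] [PerfectRing (IsLocalRing.ResidueField A) q]
    [IsFF (IsLocalRing.ResidueField A) (modularFunctionFieldFullC (IsLocalRing.ResidueField A) m)]
    (hM : (Star.Inst.model (m := m) hq hm hA H3).Good)
    (U : UnitData (Star.Inst.model (m := m) hq hm hA H3)) {n : ℕ} (hn : 0 < n)
    (hcop : ∀ (P : (Star.Inst.model (m := m) hq hm hA H3).Pt) (C : Coord U hM P),
      (∀ i, i ∈ P.on) → Nat.Coprime n C.w)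
    (ℓ : Nat.Primes) (hℓ : ¬ (ℓ : ℕ) ∣ m * q) {x : JZero (m * q)}
    (hx : x ∈ unrTors A (m * q) n) :
    etaOp (m * q) ℓ x ∈ (TwoGauss.mkData hq hm hA H3 H2).J0 n := by
  haveI : NeZero (ℓ : ℕ) := ⟨ℓ.2.ne_zero⟩
  obtain ⟨D, f, hf0, hxD, ho, -, hr⟩ := RibetE.exists_good_rep hq hm hA H3 ℓ.2 hℓ hM U hn hcop
    hx.1 hx.2
  obtain ⟨h1, h1', h1r⟩ := hr 0
  obtain ⟨h2, h2', h2r⟩ := hr 1
  have e1 : (Star.Inst.model (m := m) hq hm hA H3).ρ 0 ⟨f, h1⟩ ≠ 0 := by
    rw [← Star.tred_of_mem h1]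
    exact (Model.red_ne_zero_iff h1).mpr ⟨hf0, h1'⟩
  have e2 : (Star.Inst.model (m := m) hq hm hA H3).ρ 1 ⟨f, h2⟩ ≠ 0 := by
    rw [← Star.tred_of_mem h2]
    exact (Model.red_ne_zero_iff h2).mpr ⟨hf0, h2'⟩
  have d1 : ∀ w : Place (IsLocalRing.ResidueField A)
      (modularFunctionFieldFullC (IsLocalRing.ResidueField A) m),
      (n : ℤ) ∣ w.ord ((Star.Inst.model (m := m) hq hm hA H3).ρ 0 ⟨f, h1⟩) := by
    intro w
    have := h1r w
    rwa [Model.red, Star.tred_of_mem h1] at this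
  have d2 : ∀ w : Place (IsLocalRing.ResidueField A)
      (modularFunctionFieldFullC (IsLocalRing.ResidueField A) m),
      (n : ℤ) ∣ w.ord ((Star.Inst.model (m := m) hq hm hA H3).ρ 1 ⟨f, h2⟩) := by
    intro w
    have := h2r w
    rwa [Model.red, Star.tred_of_mem h2] at this
  have hP : (TwoGauss.mkData hq hm hA H3 H2).PreTor n (D : Divisor _ _) ⟨f, h1, h2⟩ :=
    ⟨Divisor.mem_degZero.mp D.2, e1, e2, ho⟩
  refine ⟨D, ⟨f, h1, h2⟩, hxD, hP, ?_, ?_⟩
  · rw [Finset.eq_empty_iff_forall_notMem]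
    intro w hw
    exact TwoComp.mem_bad.mp hw (d1 w)
  · rw [Finset.eq_empty_iff_forall_notMem]
    intro w hw
    exact TwoComp.mem_bad.mp hw (d2 w)

/-- **(E1)** For `x` of order dividing `n`, unramified at `q`, the class `(T_ℓ - ℓ - 1) x` has
reductions with divisors divisible by `n`, if `n` is prime to the widths of the nodes. -/
theorem etaOp_mem_J0
    [IsFF (IsLocalRing.ResidueField A) (modularFunctionFieldFullC (IsLocalRing.ResidueField A) m)]
    {n : ℕ} (hn : 0 < n)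
    (hcop : ∀ (P : (Star.Inst.model hq hm hA (GoodRed.degThm_res hq hA (NeZero.ne m) hm)).Pt)
      (C : Coord (Star.Inst.unitData hq hm hA (GoodRed.degThm_res hq hA (NeZero.ne m) hm))
        (Star.Inst.good hq hm hA (GoodRed.degThm_res hq hA (NeZero.ne m) hm)) P),
      (∀ i, i ∈ P.on) → Nat.Coprime n C.w)
    (ℓ : Nat.Primes) (hℓ : ¬ (ℓ : ℕ) ∣ m * q) {x : JZero (m * q)}
    (hx : x ∈ unrTors A (m * q) n) :
    etaOp (m * q) ℓ x ∈ (TwoGauss.twoComp hq hm hA).J0 n := by
  haveI : IsAlgClosed (IsLocalRing.ResidueField A) := inferInstance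
  exact mem_J0_mkData hq hm hA (GoodRed.degThm_res hq hA (NeZero.ne m) hm)
    (GoodRed.genus_le_all hq hA m hm) _ _ hn hcop ℓ hℓ hx

end Fermat.Agent.TSide

end
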