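import Fermat.Agent.TSide.SplFinal
import Fermat.Agent.RibetE.Fix
import Fermat.Agent.TwoComp.SwapInst
import Fermat.Agent.LTF.GammaAbs
import Fermat.Agent.LTF.BLR2

/-!
# Removal of `q` from the level without loss (GAMMA)
-/

set_option autoImplicit false
set_option linter.unusedSectionVars false
set_option linter.style.haveILetI false

open ModularCurve HahnSeries Module AlgebraicCurve
open Fermat.Agent.GaussVal Fermat.Agent.FF Fermat.Agent.RR Fermat.Agent.LTF.BLR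
open Fermat.Agent.QX4 (wJ wJ_hecke wJ_galois)

noncomputable section

namespace Fermat.Agent.TSide

/-- `GQ` -/
local notation "GQ" => (AlgebraicClosure ℚ ≃ₐ[ℚ] AlgebraicClosure ℚ)

section OddTrace

theorem tk_zero_two (d : ZMod 2) (n : ℕ) : GalRep.tk (0 : ZMod 2) d n = 0 := by
  induction n using Nat.twoStepInduction with
  | zero => simp; decide
  | one => simp
  | more n h1 h2 => rw [GalRep.tk_add_two, h1]; ring

/-- There is a prime `ℓ ∉ S` with `a_ℓ` odd. -/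
theorem exists_odd {k : ℕ} (hk : k ≠ 0) {S : Set ℕ} (hS : S.Finite) {a : ℕ → ℤ}
    {ρ : GQ →* Matrix (Fin 2) (Fin 2) (ZMod (2 ^ k))}
    (hρ : ∃ L : IntermediateField ℚ (AlgebraicClosure ℚ), FiniteDimensional ℚ L ∧
      ∀ σ : GQ, (∀ x ∈ L, σ x = x) → ρ σ = 1)
    (hfrob : ∀ ℓ : ℕ, ℓ.Prime → ℓ ∉ S → ∀ A : ValuationSubring (AlgebraicClosure ℚ),
      A.LiesOverPrime ℓ → ∀ φ : GQ, A.IsFrobeniusAt φ ℓ →
        (ρ φ).trace = ((a ℓ : ℤ) : ZMod (2 ^ k)) ∧ (ρ φ).det = ((ℓ : ℕ) : ZMod (2 ^ k)))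
    (hspan : Submodule.span (ZMod (2 ^ k)) (Set.range ρ) = ⊤) :
    ∃ ℓ : ℕ, ℓ.Prime ∧ ℓ ∉ S ∧ Odd (a ℓ) := by
  set c := ZMod.castHom (dvd_pow_self 2 hk) (ZMod 2) with hc
  obtain ⟨g, hg⟩ : ∃ g, c (ρ g).trace ≠ 0 := by
    by_contra hcon
    push Not at hcon
    have key : ∀ B : Matrix (Fin 2) (Fin 2) (ZMod (2 ^ k)), c B.trace = 0 := by
      intro B
      have hB : B ∈ Submodule.span (ZMod (2 ^ k)) (Set.range ρ) := by rw [hspan]; trivial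
      induction hB using Submodule.span_induction with
      | mem x h => obtain ⟨g, rfl⟩ := h; exact hcon g
      | zero => simp
      | add x y _ _ hx hy => rw [Matrix.trace_add, map_add, hx, hy, add_zero]
      | smul r x _ hx => rw [Matrix.trace_smul, smul_eq_mul, map_mul, hx, mul_zero]
    have := key (Matrix.single 0 0 1)
    rw [Matrix.trace_single_eq_same, map_one] at this
    exact one_ne_zero this
  obtain ⟨L, hL, hL'⟩ := hρ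
  obtain ⟨ℓ, hℓ, hℓS, A, hA, φ, hφ, j, j', -, hj'⟩ :=
    Fermat.Agent.FrobDensity.exists_frobenius_on L g S hS
  have h2 : ρ g = ρ φ ^ j' := by
    have h := hL' ((φ ^ j')⁻¹ * g) (fun x hx => by
      rw [AlgEquiv.mul_apply, hj' x hx, ← AlgEquiv.mul_apply, inv_mul_cancel, AlgEquiv.one_apply])
    rw [map_mul] at h
    have h2 : ρ (φ ^ j') * (ρ (φ ^ j')⁻¹ * ρ g) = ρ (φ ^ j') := by rw [h, mul_one]
    rw [← mul_assoc, ← map_mul, mul_inv_cancel, map_one, one_mul, map_pow] at h2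
    exact h2
  refine ⟨ℓ, hℓ, hℓS, ?_⟩
  by_contra hodd
  rw [Int.not_odd_iff_even, even_iff_two_dvd] at hodd
  obtain ⟨ht, -⟩ := hfrob ℓ hℓ hℓS A hA φ hφ
  have h3 : c (ρ φ).trace = 0 := by
    rw [ht, map_intCast]
    exact (ZMod.intCast_zmod_eq_zero_iff_dvd _ 2).mpr (by exact_mod_cast hodd)
  apply hg
  have h4 : ∀ B : Matrix (Fin 2) (Fin 2) (ZMod (2 ^ k)), c B.trace = (c.mapMatrix B).trace :=
    fun B => by
      rw [RingHom.mapMatrix_apply, Matrix.trace_fin_two, Matrix.trace_fin_two, map_add]; rfl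
  rw [h2, h4, map_pow, trace_pow_fin_two, ← h4, h3, tk_zero_two]

end OddTrace

section Main

variable {M q : ℕ} [NeZero M] (hq : q.Prime) (hqM : ¬ q ∣ M)
  {A : ValuationSubring (AlgebraicClosure ℚ)} (hA : A.LiesOverPrime q)

theorem wJ_mem_eigJ [NeZero q] {S : Set ℕ} (hNS : ∀ ℓ : ℕ, ℓ.Prime → ℓ ∣ M * q → ℓ ∈ S) {a : ℕ → ℤ} {n : ℕ}
    (hn : n ≠ 0) {x : JZero (M * q)} (hx : x ∈ eigJ (M * q) S a n) :
    wJ hq hqM x ∈ eigJ (M * q) S a n := by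
  refine ⟨by rw [← map_nsmul, hx.1, map_zero], fun ℓ hℓ hℓS => ?_⟩
  rw [← wJ_hecke hq hqM ⟨ℓ, hℓ⟩ (fun h => hℓS (hNS ℓ hℓ h)) hn x hx.1, hx.2 ℓ hℓ hℓS, map_zsmul]

set_option maxHeartbeats 1600000 in
/-- **(GAMMA)**, with the widths as a hypothesis. -/
theorem gamma_of_copWidths (hq2 : q ≠ 2) [Fact q.Prime] [CharP (IsLocalRing.ResidueField A) q]
    {k : ℕ} (hW : RibetE.CopWidths (m := M) hq hqM hA (2 ^ k)) {S : Set ℕ} (hS : S.Finite)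
    (hNS : ∀ ℓ : ℕ, ℓ.Prime → ℓ ∣ M * q * 2 → ℓ ∈ S) {a : ℕ → ℤ}
    {ρ : GQ →* Matrix (Fin 2) (Fin 2) (ZMod (2 ^ k))}
    (hρ : ∃ L : IntermediateField ℚ (AlgebraicClosure ℚ), FiniteDimensional ℚ L ∧
      ∀ σ : GQ, (∀ x ∈ L, σ x = x) → ρ σ = 1)
    (hfrob : ∀ ℓ : ℕ, ℓ.Prime → ℓ ∉ S → ∀ A : ValuationSubring (AlgebraicClosure ℚ),
      A.LiesOverPrime ℓ → ∀ φ : GQ, A.IsFrobeniusAt φ ℓ →
        (ρ φ).trace = ((a ℓ : ℤ) : ZMod (2 ^ k)) ∧ (ρ φ).det = ((ℓ : ℕ) : ZMod (2 ^ k)))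
    (hspan : Submodule.span (ZMod (2 ^ k)) (Set.range ρ) = ⊤)
    (hI : ∀ σ ∈ A.inertiaSubgroupIn ℚ, ρ σ = 1) {φ : GQ} (hφ : A.IsFrobeniusAt φ q)
    (hφ' : ∃ i j : Fin 2, i ≠ j ∧ IsUnit (ρ φ j i))
    {x : JZero (M * q)} (hx : x ∈ eigJ (M * q) S a (2 ^ k)) (hx' : 2 ^ (k - 1) • x ≠ 0) :
    ∃ y ∈ eigJ M S a (2 ^ k), 2 ^ (k - 1) • y ≠ 0 := by
  have h2 : ¬ q ∣ 2 ^ k := fun h =>
    hq2 ((Nat.prime_dvd_prime_iff_eq hq Nat.prime_two).mp (hq.dvd_of_dvd_pow h))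
  have hk : k ≠ 0 := by
    rintro rfl
    apply hx'
    simpa using hx.1
  have h2k : (2 : ℕ) ^ k ≠ 0 := pow_ne_zero k two_ne_zero
  haveI : NeZero (2 ^ k) := ⟨h2k⟩
  have hNS' : ∀ ℓ : ℕ, ℓ.Prime → ℓ ∣ M * q → ℓ ∈ S := fun ℓ hℓ h => hNS ℓ hℓ (h.mul_right 2)
  haveI : IsFF (IsLocalRing.ResidueField A)
      (modularFunctionFieldFullC (IsLocalRing.ResidueField A) M) :=
    TwoGauss.isFF_m' (m := M) (GoodRed.degThm_res hq hA (NeZero.ne M) hqM)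
  -- the auxiliary prime
  obtain ⟨ℓ₀, hℓ₀, hℓ₀S, hodd⟩ := exists_odd hk hS hρ hfrob hspan
  have hℓ₀2 : ℓ₀ ≠ 2 := by
    rintro rfl
    exact hℓ₀S (hNS 2 hℓ₀ (dvd_mul_left _ _))
  have hu : Odd (a ℓ₀ - ((ℓ₀ + 1 : ℕ) : ℤ)) := by
    have h3 : Odd ℓ₀ := hℓ₀.odd_of_ne_two hℓ₀2
    have h4 : Even ((ℓ₀ + 1 : ℕ) : ℤ) := by exact_mod_cast h3.add_one
    exact hodd.sub_even h4
  -- the module structure
  obtain ⟨Ψ, hΨ⟩ := exists_algHom_eigJ (N := M * q) Nat.prime_two hS hNS hρ hfrob hspan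
  set X := eigJ (M * q) S a (2 ^ k) with hX
  have hXI : ∀ y ∈ X, y ∈ unrTors A (M * q) (2 ^ k) := by
    intro y hy
    refine ⟨hy.1, fun σ hσ => ?_⟩
    have h5 := hΨ σ ⟨y, hy⟩
    rw [hI σ hσ, map_one] at h5
    exact h5.symm
  set w : Module.End (ZMod (2 ^ k)) X := resEnd (wJ hq hqM)
    (fun y hy => wJ_mem_eigJ hq hqM hNS' h2k hy) with hw
  have hwΨ : ∀ B, Commute w (Ψ B) := by
    intro B
    have hB : B ∈ Submodule.span (ZMod (2 ^ k)) (Set.range ρ) := by rw [hspan]; trivial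
    induction hB using Submodule.span_induction with
    | mem B hB =>
      obtain ⟨g, rfl⟩ := hB
      refine LinearMap.ext fun y => Subtype.ext ?_
      change wJ hq hqM ((Ψ (ρ g) y : X) : JZero (M * q)) = ((Ψ (ρ g) (w y) : X) : JZero (M * q))
      rw [hΨ, hΨ, wJ_galois]
      rfl
    | zero => rw [map_zero]; exact Commute.zero_right _
    | add B C _ _ hB hC => rw [map_add]; exact hB.add_right hC
    | smul c B _ hB => rw [map_smul]; exact hB.smul_right c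
  -- the splitting map
  have hℓ₀N : ¬ ((⟨ℓ₀, hℓ₀⟩ : Nat.Primes) : ℕ) ∣ M * q := fun h => hℓ₀S (hNS' ℓ₀ hℓ₀ h)
  obtain ⟨spl, hs1, hs2⟩ := exists_splitting hq hqM hA h2 ⟨ℓ₀, hℓ₀⟩ X
    (fun y hy => RibetE.etaOp_mem_J0 hq hqM hA (Nat.pos_of_ne_zero h2k) hW ⟨ℓ₀, hℓ₀⟩ hℓ₀N
      (hXI y hy))
  have huu : IsUnit (((a ℓ₀ - ((ℓ₀ + 1 : ℕ) : ℤ) : ℤ)) : ZMod (2 ^ k)) := by
    rw [ZMod.coe_int_isUnit_iff_isCoprime]
    push_cast
    refine IsCoprime.pow_left ?_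
    obtain ⟨r, hr⟩ := hu
    push_cast at hr
    rw [hr]
    exact ⟨-r, 1, by ring⟩
  obtain ⟨i, j, hij, hA'⟩ := hφ'
  obtain ⟨y, hy⟩ := LTF.GammaAbs.core Ψ hwΨ (ρ φ) hij hA' huu (q : ZMod (2 ^ k)) spl
    (2 ^ (k - 1)) (x := ⟨x, hx⟩) (fun y hy => by
      have h6 : heckeOperatorBar (M * q) ⟨ℓ₀, hℓ₀⟩ (y : JZero (M * q)) -
          (ℓ₀ + 1) • (y : JZero (M * q)) ∈ (TwoGauss.twoComp hq hqM hA).TT (2 ^ k) := hs2 y hy
      rw [y.2.2 ℓ₀ hℓ₀ hℓ₀S] at h6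
      have h7 : a ℓ₀ • (y : JZero (M * q)) - (ℓ₀ + 1) • (y : JZero (M * q)) =
          (a ℓ₀ - ((ℓ₀ + 1 : ℕ) : ℤ)) • (y : JZero (M * q)) := by
        rw [sub_smul, Nat.cast_smul_eq_nsmul]
      rw [h7] at h6
      have h8 := TwoGauss.frob_toric hq hqM hA h2 hφ h6.1 h6.2
      refine Subtype.ext ?_
      rw [hΨ, Int.cast_smul_eq_zsmul, Nat.cast_smul_eq_nsmul, AddSubgroup.coe_neg,
        AddSubgroup.coe_nsmul, coe_resEnd, AddSubgroup.coe_zsmul]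
      exact h8) (fun h => hx' (by simpa using congrArg Subtype.val h))
  -- the components
  have hk2 : 2 ^ k • spl y = 0 := by
    rw [← map_nsmul]
    have : 2 ^ k • y = 0 := Subtype.ext y.2.1
    rw [this, map_zero]
  have hT : ∀ (ℓ : ℕ) (hℓ : ℓ.Prime), ℓ ∉ S →
      (heckeOperatorBar M ⟨ℓ, hℓ⟩ (spl y).1, heckeOperatorBar M ⟨ℓ, hℓ⟩ (spl y).2) =
        a ℓ • spl y := by
    intro ℓ hℓ hℓS
    have h9 : heckeOperatorBar (M * q) ⟨ℓ, hℓ⟩ (y : JZero (M * q)) ∈ X := by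
      rw [y.2.2 ℓ hℓ hℓS]
      exact AddSubgroup.zsmul_mem _ y.2 _
    rw [← hs1 ⟨ℓ, hℓ⟩ (fun h => hℓS (hNS' ℓ hℓ h)) y h9, ← map_zsmul]
    congr 1
    exact Subtype.ext (y.2.2 ℓ hℓ hℓS)
  by_cases h1 : 2 ^ (k - 1) • (spl y).1 = 0
  · refine ⟨(spl y).2, ⟨congrArg Prod.snd hk2, fun ℓ hℓ hℓS => congrArg Prod.snd (hT ℓ hℓ hℓS)⟩,
      fun h3 => hy (Prod.ext h1 h3)⟩
  · exact ⟨(spl y).1, ⟨congrArg Prod.fst hk2, fun ℓ hℓ hℓS => congrArg Prod.fst (hT ℓ hℓ hℓS)⟩, h1⟩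

end Main

end Fermat.Agent.TSide

end
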