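import Fermat.Agent.TSide.GammaIter
import Fermat.Agent.LTF.Gal.CurvePt

/-!
# Removal of the deep primes for a good curve
-/

set_option autoImplicit false
set_option linter.unusedSectionVars false
set_option linter.style.haveILetI false

open ModularCurve HahnSeries Module AlgebraicCurve
open Fermat.Agent.LTF.BLR Fermat.Agent.LTF.Gal Fermat.Agent.LTF.TwoDiv
open Fermat.Agent.S53norm (HasMat M2)

noncomputable section

namespace Fermat.Agent.TSide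

/-- `GQ` -/
local notation "GQ" => (AlgebraicClosure ℚ ≃ₐ[ℚ] AlgebraicClosure ℚ)

variable {W : WeierstrassCurve ℤ} {hΔ : (W.map (Int.castRingHom ℚ)).Δ ≠ 0} {r : GQ →* M2 ℤ_[2]}

theorem castHom_redPow {k : ℕ} (hk : k ≠ 0) (r : GQ →* M2 ℤ_[2]) (σ : GQ) :
    (redPow k r σ).map (ZMod.castHom (dvd_pow_self 2 hk) (ZMod 2)) = redTwo r σ := by
  ext i j
  change ZMod.castHom (dvd_pow_self 2 hk) (ZMod 2) (PadicInt.toZModPow (p := 2) k (r σ i j)) =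
    PadicInt.toZModPow (p := 2) 1 (r σ i j)
  have h := congrArg (fun f => f (r σ i j))
    (PadicInt.zmod_cast_comp_toZModPow (p := 2) 1 k (Nat.one_le_iff_ne_zero.mpr hk))
  exact h

/-- Traces and determinants of the Frobenius elements on `W[2^k]`. -/
theorem frob_curve (hr : HasMat ((Tate.tateRep (W.map (Int.castRingHom ℚ)) hΔ 2).ρ : GQ → _) r)
    {ℓ : ℕ} (hℓ : ℓ.Prime) (hgood : W.IsGoodPrimeFor ℓ) (hℓ2 : ℓ ≠ 2)
    {A : ValuationSubring (AlgebraicClosure ℚ)} (hA : A.LiesOverPrime ℓ) {φ : GQ}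
    (hφ : A.IsFrobeniusAt φ ℓ) (k : ℕ) :
    (redPow k r φ).trace = ((W.apOfModel ℓ : ℤ) : ZMod (2 ^ k)) ∧
      (redPow k r φ).det = ((ℓ : ℕ) : ZMod (2 ^ k)) := by
  haveI : Fact ℓ.Prime := ⟨hℓ⟩
  have h1 := Tate.charpoly_tateRep_frobenius 2 hΔ hgood (Ne.symm hℓ2) hA hφ
  rw [Fermat.Agent.RTD.hasMat_charpoly hr φ, Matrix.charpoly_fin_two] at h1
  have ht : (r φ).trace = ((W.apOfModel ℓ : ℤ) : ℤ_[2]) := by
    have := congrArg (fun P => Polynomial.coeff P 1) h1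
    simpa [Polynomial.coeff_X, Polynomial.coeff_C] using this
  have hd : (r φ).det = ((ℓ : ℕ) : ℤ_[2]) := by
    have := congrArg (fun P => Polynomial.coeff P 0) h1
    simpa [Polynomial.coeff_X, Polynomial.coeff_C] using this
  rw [trace_redPow, det_redPow, ht, hd, map_intCast, map_natCast]
  exact ⟨rfl, rfl⟩

/-- **(GAMMA) for a good curve**: removal of the auxiliary primes `q ∈ Q` (with
`ρ̄(Frob_q) ≠ 1`) from the level without loss. -/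
theorem gamma_curve (hWd : WidthHyp) (hGC : LTF.GoodCurve W)
    (hr : HasMat ((Tate.tateRep (W.map (Int.castRingHom ℚ)) hΔ 2).ρ : GQ → _) r)
    {N : ℕ} [NeZero N] (hN : N.primeFactors = W.Δ.natAbs.primeFactors) {k : ℕ} (Q : Finset ℕ)
    (hQ : ∀ q ∈ Q, q.Prime ∧ q ∉ W.Δ.natAbs.primeFactors ∧
      ∃ A : ValuationSubring (AlgebraicClosure ℚ), A.LiesOverPrime q ∧ ∃ φ : GQ,
        A.IsFrobeniusAt φ q ∧ redTwo r φ ≠ 1)
    {S : Set ℕ} (hS : S.Finite) (hSW : ∀ ℓ ∈ W.Δ.natAbs.primeFactors, ℓ ∈ S)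
    (hSQ : ∀ q ∈ Q, q ∈ S) {L : ℕ} [NeZero L] (hL : L = N * ∏ q ∈ Q, q) {x : JZero L}
    (hx : x ∈ eigJ L S W.apOfModel (2 ^ k)) (hx' : 2 ^ (k - 1) • x ≠ 0) :
    ∃ y ∈ eigJ N S W.apOfModel (2 ^ k), 2 ^ (k - 1) • y ≠ 0 := by
  have hk : k ≠ 0 := by
    rintro rfl
    apply hx'
    simpa using hx.1
  have hne : W.Δ ≠ 0 := hGC.neg.ne
  have hres := resData_redTwo hGC hΔ hr
  have h2W : 2 ∈ W.Δ.natAbs.primeFactors := (mem_badPrimes hne).mpr ⟨Nat.prime_two, hGC.two⟩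
  have hNdvd : ∀ ℓ : ℕ, ℓ.Prime → (ℓ ∣ N ↔ ℓ ∈ W.Δ.natAbs.primeFactors) := by
    intro ℓ hℓ
    rw [← hN, Nat.mem_primeFactors_of_ne_zero (NeZero.ne N)]
    exact ⟨fun h => ⟨hℓ, h⟩, fun h => h.2⟩
  have hgoodS : ∀ ℓ : ℕ, ℓ.Prime → ℓ ∉ W.Δ.natAbs.primeFactors → W.IsGoodPrimeFor ℓ ∧ ℓ ≠ 2 := by
    intro ℓ hℓ h
    refine ⟨fun hd => h ((mem_badPrimes hne).mpr ⟨hℓ, hd⟩), ?_⟩
    rintro rfl
    exact h h2W
  refine gamma_iter hWd ?_ hS ?_ (lev_curve hr k) ?_ ?_ Q ?_ hL hx hx'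
  · obtain ⟨p, hp, hpd, hp11⟩ := hGC.eleven
    exact ⟨p, hp, (hNdvd p hp).mpr ((mem_badPrimes hne).mpr ⟨hp, hpd⟩), hp11⟩
  · intro ℓ hℓ h
    rcases (hℓ.dvd_mul).mp h with h | h
    · exact hSW ℓ ((hNdvd ℓ hℓ).mp h)
    · rw [(Nat.prime_dvd_prime_iff_eq hℓ Nat.prime_two).mp h]
      exact hSW 2 h2W
  · intro ℓ hℓ hℓS A hA φ hφ
    obtain ⟨h1, h2⟩ := hgoodS ℓ hℓ fun h => hℓS (hSW ℓ h)
    exact frob_curve hr hℓ h1 h2 hA hφ k
  · refine span_eq_top_two hk _ fun B hB => ?_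
    obtain ⟨g, hg⟩ := hres.surj B hB
    exact ⟨g, by rw [castHom_redPow hk, hg]⟩
  · intro q hq
    obtain ⟨hqp, hqW, A, hA, φ, hφ, hne1⟩ := hQ q hq
    refine ⟨hqp, (hgoodS q hqp hqW).2, fun h => hqW ((hNdvd q hqp).mp h), hSQ q hq, A, hA,
      fun σ hσ => unr_curve hne hGC.two hr hqp hqW hA hσ, φ, hφ, ?_⟩
    refine LTF.GammaAbs.exists_offdiag_unit (Nat.pos_of_ne_zero hk) _ ?_ ?_
    · have h1 : redPow k r φ * redPow k r φ⁻¹ = 1 := by rw [← map_mul, mul_inv_cancel, map_one]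
      have h2 := congrArg Matrix.det h1
      rw [Matrix.det_mul, Matrix.det_one] at h2
      exact IsUnit.of_mul_eq_one _ h2
    · rw [castHom_redPow hk]
      exact hne1

end Fermat.Agent.TSide

end
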