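import Fermat.Agent.TSide.Gamma

/-!
# Removal of a finite set of primes from the level without loss
-/

set_option autoImplicit false
set_option linter.unusedSectionVars false
set_option linter.style.haveILetI false

open ModularCurve HahnSeries Module AlgebraicCurve
open Fermat.Agent.LTF.BLR

noncomputable section

namespace Fermat.Agent.TSide

/-- `GQ` -/
local notation "GQ" => (AlgebraicClosure ℚ ≃ₐ[ℚ] AlgebraicClosure ℚ)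

/-- All widths are prime to `2 ^ k` if the level has a prime factor `≡ 11 (mod 12)`. -/
def WidthHyp : Prop :=
  ∀ {M q : ℕ} [NeZero M] (hq : q.Prime) (hqM : ¬ q ∣ M) {A : ValuationSubring (AlgebraicClosure ℚ)}
    (hA : A.LiesOverPrime q) [Fact q.Prime] [CharP (IsLocalRing.ResidueField A) q],
    (∃ r : ℕ, r.Prime ∧ r ∣ M ∧ r % 12 = 11) → ∀ n : ℕ, 0 < n → RibetE.CopWidths (m := M) hq hqM hA n

/-- **(GAMMA)** -/
theorem gamma_of_width (hW : WidthHyp) {M q : ℕ} [NeZero M] (hq : q.Prime) (hqM : ¬ q ∣ M)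
    {A : ValuationSubring (AlgebraicClosure ℚ)} (hA : A.LiesOverPrime q) (hq2 : q ≠ 2)
    (hr : ∃ r : ℕ, r.Prime ∧ r ∣ M ∧ r % 12 = 11)
    {k : ℕ} {S : Set ℕ} (hS : S.Finite)
    (hNS : ∀ ℓ : ℕ, ℓ.Prime → ℓ ∣ M * q * 2 → ℓ ∈ S) {a : ℕ → ℤ}
    {ρ : GQ →* Matrix (Fin 2) (Fin 2) (ZMod (2 ^ k))}
    (hρ : ∃ L : IntermediateField ℚ (AlgebraicClosure ℚ), FiniteDimensional ℚ L ∧
      ∀ σ : GQ, (∀ x ∈ L, σ x = x) → ρ σ = 1)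
    (hfrob : ∀ ℓ : ℕ, ℓ.Prime → ℓ ∉ S → ∀ A : ValuationSubring (AlgebraicClosure ℚ),
      A.LiesOverPrime ℓ → ∀ φ : GQ, A.IsFrobeniusAt φ ℓ →
        (ρ φ).trace = ((a ℓ : ℤ) : ZMod (2 ^ k)) ∧ (ρ φ).det = ((ℓ : ℕ) : ZMod (2 ^ k)))
    (hspan : Submodule.span (ZMod (2 ^ k)) (Set.range ρ) = ⊤)
    (hI : ∀ σ ∈ A.inertiaSubgroupIn ℚ, ρ σ = 1) {φ : GQ} (hφ : A.IsFrobeniusAt φ q)
    (hφ' : ∃ i j : Fin 2, i ≠ j ∧ IsUnit (ρ φ j i)) {L : ℕ} [NeZero L] (hL : L = M * q)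
    {x : JZero L} (hx : x ∈ eigJ L S a (2 ^ k)) (hx' : 2 ^ (k - 1) • x ≠ 0) :
    ∃ y ∈ eigJ M S a (2 ^ k), 2 ^ (k - 1) • y ≠ 0 := by
  haveI : Fact q.Prime := ⟨hq⟩
  haveI : CharP (IsLocalRing.ResidueField A) q := TwoGauss.charP_res hq hA
  subst hL
  exact gamma_of_copWidths hq hqM hA hq2 (hW hq hqM hA hr _ (by positivity)) hS hNS hρ hfrob hspan
    hI hφ hφ' hx hx'

/-- **Iteration of (GAMMA).** -/
theorem gamma_iter (hW : WidthHyp) {N : ℕ} [NeZero N]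
    (hr : ∃ r : ℕ, r.Prime ∧ r ∣ N ∧ r % 12 = 11)
    {k : ℕ} {S : Set ℕ} (hS : S.Finite) (hNS : ∀ ℓ : ℕ, ℓ.Prime → ℓ ∣ N * 2 → ℓ ∈ S) {a : ℕ → ℤ}
    {ρ : GQ →* Matrix (Fin 2) (Fin 2) (ZMod (2 ^ k))}
    (hρ : ∃ L : IntermediateField ℚ (AlgebraicClosure ℚ), FiniteDimensional ℚ L ∧
      ∀ σ : GQ, (∀ x ∈ L, σ x = x) → ρ σ = 1)
    (hfrob : ∀ ℓ : ℕ, ℓ.Prime → ℓ ∉ S → ∀ A : ValuationSubring (AlgebraicClosure ℚ),
      A.LiesOverPrime ℓ → ∀ φ : GQ, A.IsFrobeniusAt φ ℓ →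
        (ρ φ).trace = ((a ℓ : ℤ) : ZMod (2 ^ k)) ∧ (ρ φ).det = ((ℓ : ℕ) : ZMod (2 ^ k)))
    (hspan : Submodule.span (ZMod (2 ^ k)) (Set.range ρ) = ⊤) (Q : Finset ℕ)
    (hQ : ∀ q ∈ Q, q.Prime ∧ q ≠ 2 ∧ ¬ q ∣ N ∧ q ∈ S ∧
      ∃ A : ValuationSubring (AlgebraicClosure ℚ), A.LiesOverPrime q ∧
        (∀ σ ∈ A.inertiaSubgroupIn ℚ, ρ σ = 1) ∧
        ∃ φ : GQ, A.IsFrobeniusAt φ q ∧ ∃ i j : Fin 2, i ≠ j ∧ IsUnit (ρ φ j i))
    {L : ℕ} [NeZero L] (hL : L = N * ∏ q ∈ Q, q) {x : JZero L} (hx : x ∈ eigJ L S a (2 ^ k))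
    (hx' : 2 ^ (k - 1) • x ≠ 0) :
    ∃ y ∈ eigJ N S a (2 ^ k), 2 ^ (k - 1) • y ≠ 0 := by
  classical
  induction Q using Finset.induction_on generalizing L with
  | empty =>
    have hL' : L = N := by simpa using hL
    subst hL'
    exact ⟨x, hx, hx'⟩
  | insert q Q hqQ ih =>
    have hQ' := fun q' hq' => hQ q' (Finset.mem_insert_of_mem hq')
    obtain ⟨hq, hq2, hqN, hqS, A, hA, hI, φ, hφ, hφ'⟩ := hQ q (Finset.mem_insert_self q Q)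
    have hP0 : ∏ q ∈ Q, q ≠ 0 := Finset.prod_ne_zero_iff.mpr fun q' hq' => (hQ' q' hq').1.ne_zero
    haveI : NeZero (N * ∏ q ∈ Q, q) := ⟨mul_ne_zero (NeZero.ne N) hP0⟩
    have hqM : ¬ q ∣ N * ∏ q ∈ Q, q := by
      rw [hq.dvd_mul, not_or]
      refine ⟨hqN, fun h => ?_⟩
      obtain ⟨q', hq', h'⟩ := (Prime.dvd_finset_prod_iff hq.prime _).mp h
      have := (Nat.prime_dvd_prime_iff_eq hq (hQ' q' hq').1).mp h'
      subst this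
      exact hqQ hq'
    have hL' : L = (N * ∏ q ∈ Q, q) * q := by
      rw [hL, Finset.prod_insert hqQ]; ring
    have hNS' : ∀ ℓ : ℕ, ℓ.Prime → ℓ ∣ (N * ∏ q ∈ Q, q) * q * 2 → ℓ ∈ S := by
      intro ℓ hℓ h
      rw [hℓ.dvd_mul, hℓ.dvd_mul, hℓ.dvd_mul] at h
      rcases h with ((h | h) | h) | h
      · exact hNS ℓ hℓ (h.mul_right 2)
      · obtain ⟨q', hq', h'⟩ := (Prime.dvd_finset_prod_iff hℓ.prime _).mp h
        have := (Nat.prime_dvd_prime_iff_eq hℓ (hQ' q' hq').1).mp h'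
        subst this
        exact (hQ' _ hq').2.2.2.1
      · have := (Nat.prime_dvd_prime_iff_eq hℓ hq).mp h
        subst this
        exact hqS
      · exact hNS ℓ hℓ (h.mul_left N)
    obtain ⟨y, hy, hy'⟩ := gamma_of_width hW hq hqM hA hq2
      (by obtain ⟨r, h1, h2, h3⟩ := hr; exact ⟨r, h1, h2.mul_right _, h3⟩) hS hNS' hρ hfrob hspan
      hI hφ hφ' hL' hx hx'
    exact ih hQ' rfl hy hy'

end Fermat.Agent.TSide

end
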