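import Fermat.Agent.TSide.RedC
import Fermat.Agent.RedInj.OfGauss
import Fermat.Agent.S27.Export

/-!
# Reduction of torsion classes at a good component is bijective
-/

set_option autoImplicit false
set_option linter.unusedSectionVars false

open AlgebraicCurve WithZero Module
open scoped IntermediateField
open Fermat.Agent.RR Fermat.Agent.Deuring Fermat.Agent.FF Fermat.Agent.TwoComp
open Fermat.Agent.QX4 (Split exists_ord_eq_of_nsmul_eq_zero mk_eq_zero_iff)

noncomputable section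

namespace Fermat.Agent.TSide

variable {K Fm k F' : Type*} [Field K] [Field Fm] [Algebra K Fm] [Field k] [Field F']
    [Algebra k F']

/-- the component of a good reduction datum -/
def ofGauss (G : GaussData K Fm k F') : Comp K Fm k F' where
  A := G.A
  res := G.res
  O := G.O
  ρ := G.ρ
  ρ_eq_zero_iff := G.ρ_eq_zero_iff
  mem_O_iff := G.mem_O_iff
  ρ_algebraMap := G.ρ_algebraMap
  scale f hf := by
    obtain ⟨c, hc, h, h0⟩ := G.exists_scale hf
    refine ⟨c, hc, ?_⟩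
    have e : algebraMap K Fm c * f = c • f := (Algebra.smul_def c f).symm
    have h' : algebraMap K Fm c * f ∈ G.O := by rw [e]; exact h
    refine ⟨h', ?_⟩
    have e2 : (⟨algebraMap K Fm c * f, h'⟩ : G.O) = ⟨c • f, h⟩ := Subtype.ext e
    rw [e2]
    exact h0

variable [IsAlgClosed K] [IsAlgClosed k] [IsFF K Fm] [IsFF k F'] {G : GaussData K Fm k F'}

theorem mk_eq_mk_of_div {E E₂ : Divisor.degZero (K := K) (F := Fm)} {g : Fm} (hg : g ≠ 0)
    (h : ∀ v : Place K Fm, v.ord g = (E : Divisor K Fm) v - (E₂ : Divisor K Fm) v) :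
    Pic0.mk E = Pic0.mk E₂ := by
  rw [← sub_eq_zero]
  have h1 : Pic0.mk E - Pic0.mk E₂ = Pic0.mk (E - E₂) := rfl
  rw [h1, mk_eq_zero_iff]
  refine ⟨g, hg, fun v => ?_⟩
  rw [AddSubgroup.coe_sub, Finsupp.sub_apply]
  exact (h v).symm

/-- at a good component every torsion class has a reduction -/
theorem exists_redC (R : RedMap G) {n : ℕ} (hn : n ≠ 0) {x : Pic0 K Fm} (hx : n • x = 0) :
    ∃ y, (ofGauss G).RedC n x y := by
  obtain ⟨E, rfl⟩ := Pic0.mk_surjective x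
  obtain ⟨f, hf0, hf⟩ := exists_ord_eq_of_nsmul_eq_zero hx
  obtain ⟨c, hc0, g, hg⟩ := Comp.exists_redF (C := ofGauss G) hf0
  have hcF : algebraMap K Fm c ≠ 0 := (_root_.map_ne_zero _).mpr hc0
  have hord : ∀ v : Place K Fm, v.ord (algebraMap K Fm c * f) = n * (E : Divisor K Fm) v :=
    fun v => by rw [v.ord_mul hcF hf0, QX4.ord_algebraMap_eq_zero v hc0, zero_add, hf]
  have hE : Divisor.degree (E : Divisor K Fm) = 0 := Divisor.mem_degZero.mp E.2
  have hE' : R.r (E : Divisor K Fm) ∈ Divisor.degZero (K := k) (F := F') := by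
    rw [Divisor.mem_degZero, R.degree_r, hE]
  refine ⟨Pic0.mk ⟨_, hE'⟩, E, _, ⟨_, hE'⟩, g, rfl, rfl, hg, hord, fun w => ?_⟩
  obtain ⟨hg0, hfO, hr⟩ := hg
  have h1 : RR.div (algebraMap K Fm c * f) = n • (E : Divisor K Fm) := by
    ext v
    rw [div_apply, hord, Finsupp.smul_apply, nsmul_eq_mul]
  have h2 := R.r_div _ hfO (by
    change (ofGauss G).ρ ⟨_, hfO⟩ ≠ 0
    rw [hr]; exact hg0)
  have h3 : RR.div g = n • R.r (E : Divisor K Fm) := by
    rw [← map_nsmul, ← h1, h2, ← hr]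
    rfl
  have h4 := DFunLike.congr_fun h3 w
  rw [div_apply, Finsupp.smul_apply, nsmul_eq_mul] at h4
  exact h4

/-- torsion injectivity -/
theorem redC_inj (R : RedMap G) (hg : genusFF K Fm ≤ genusFF k F') {n : ℕ} (hn : (n : k) ≠ 0)
    {x : Pic0 K Fm} (h : (ofGauss G).RedC n x 0) : x = 0 := by
  have hn0 : 0 < n := Nat.pos_of_ne_zero (by rintro rfl; simp at hn)
  obtain ⟨E, f, hf, u, rfl, hu, ho, hr⟩ := (Comp.split_iff hn0).mpr h
  have hf0 : f ≠ 0 := by
    rintro rfl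
    have : (⟨0, hf⟩ : (ofGauss G).O) = 0 := rfl
    rw [this, map_zero] at hr
    exact pow_ne_zero n hu hr.symm
  rw [mk_eq_zero_iff]
  refine RedInj.isPrincipal_of_pow R hg hn (Divisor.mem_degZero.mp E.2) hf0 ?_ hf hu hr
  ext v
  rw [Finsupp.smul_apply, div_apply, ho, nsmul_eq_mul]

/-- surjectivity on torsion, by counting -/
theorem redC_surj (R : RedMap G) (hg : genusFF K Fm ≤ genusFF k F') {n : ℕ} (hnK : (n : K) ≠ 0)
    (hn : (n : k) ≠ 0) {y : Pic0 k F'} (hy : n • y = 0) :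
    ∃ x : Pic0 K Fm, (ofGauss G).RedC n x y := by
  classical
  have hn0 : n ≠ 0 := by rintro rfl; simp at hn
  have hfin := Data.finite_tors (K := K) (F := Fm) n hnK
  have hfin' := Data.finite_tors (K := k) (F := F') n hn
  choose r hr using fun x : {x : Pic0 K Fm | n • x = 0} => exists_redC R hn0 x.2
  let φ : {x : Pic0 K Fm | n • x = 0} → {y : Pic0 k F' | n • y = 0} :=
    fun x => ⟨r x, (hr x).nsmul_eq_zero.2⟩
  have hinj : Function.Injective φ := by
    intro x x' hxx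
    have h1 : r x = r x' := congrArg Subtype.val hxx
    have h2 := (hr x).sub (hr x')
    rw [h1, sub_self] at h2
    exact Subtype.ext (sub_eq_zero.mp (redC_inj R hg hn h2))
  have hcard : Nat.card {x : Pic0 K Fm | n • x = 0} = Nat.card {y : Pic0 k F' | n • y = 0} := by
    rw [Data.natCard_tors n hnK, Data.natCard_tors n hn, le_antisymm hg G.genus_le]
  have hbij : Function.Bijective φ := by
    have := Fintype.ofFinite {x : Pic0 K Fm | n • x = 0}
    have := Fintype.ofFinite {y : Pic0 k F' | n • y = 0}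
    rw [Fintype.bijective_iff_injective_and_card]
    refine ⟨hinj, ?_⟩
    rwa [Nat.card_eq_fintype_card, Nat.card_eq_fintype_card] at hcard
  obtain ⟨x, hx⟩ := hbij.2 ⟨y, hy⟩
  refine ⟨x, ?_⟩
  have h1 : r x = y := congrArg Subtype.val hx
  rw [← h1]
  exact hr x

section Cg

variable {F : Type*} [Field F] [Algebra K F] [IsFF K F] (C : Comp K F k F')
  (G : GaussData K Fm k F')

/-- `x ∈ Pic⁰(F)[n]` and `z ∈ Pic⁰(Fm)[n]` have the same reduction at the component `C`. -/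
def Cg (n : ℕ) (x : Pic0 K F) (z : Pic0 K Fm) : Prop :=
  ∃ y, C.RedC n x y ∧ (ofGauss G).RedC n z y

variable {C G}

theorem Cg.add {n : ℕ} {x x₂ : Pic0 K F} {z z₂ : Pic0 K Fm} (h : Cg C G n x z)
    (h₂ : Cg C G n x₂ z₂) : Cg C G n (x + x₂) (z + z₂) := by
  obtain ⟨y, h1, h2⟩ := h
  obtain ⟨y₂, h1₂, h2₂⟩ := h₂
  exact ⟨y + y₂, h1.add h1₂, h2.add h2₂⟩

theorem Cg.neg {n : ℕ} {x : Pic0 K F} {z : Pic0 K Fm} (h : Cg C G n x z) :
    Cg C G n (-x) (-z) := by
  obtain ⟨y, h1, h2⟩ := h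
  exact ⟨-y, h1.neg, h2.neg⟩

theorem Cg.sub {n : ℕ} {x x₂ : Pic0 K F} {z z₂ : Pic0 K Fm} (h : Cg C G n x z)
    (h₂ : Cg C G n x₂ z₂) : Cg C G n (x - x₂) (z - z₂) := by
  rw [sub_eq_add_neg, sub_eq_add_neg]; exact h.add h₂.neg

theorem Cg.unique (R : RedMap G) (hg : genusFF K Fm ≤ genusFF k F') {n : ℕ} (hn : (n : k) ≠ 0)
    {x : Pic0 K F} {z z₂ : Pic0 K Fm} (h : Cg C G n x z) (h₂ : Cg C G n x z₂) : z = z₂ := by
  have hn0 : n ≠ 0 := by rintro rfl; simp at hn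
  obtain ⟨y, h1, h2⟩ := h.sub h₂
  rw [sub_self] at h1
  rw [h1.eq_zero hn0] at h2
  exact sub_eq_zero.mp (redC_inj R hg hn h2)

theorem exists_cg (R : RedMap G) (hg : genusFF K Fm ≤ genusFF k F') {n : ℕ} (hnK : (n : K) ≠ 0)
    (hn : (n : k) ≠ 0) {x : Pic0 K F} (h : ∃ y, C.RedC n x y) : ∃ z, Cg C G n x z := by
  obtain ⟨y, hy⟩ := h
  obtain ⟨z, hz⟩ := redC_surj R hg hnK hn hy.nsmul_eq_zero.2
  exact ⟨z, y, hy, hz⟩

theorem Cg.redC_zero {n : ℕ} (hn : n ≠ 0) {x : Pic0 K F} (h : Cg C G n x 0) :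
    C.RedC n x 0 := by
  obtain ⟨y, h1, h2⟩ := h
  rw [h2.eq_zero hn] at h1
  exact h1

theorem Cg.nsmul_eq_zero {n : ℕ} {x : Pic0 K F} {z : Pic0 K Fm} (h : Cg C G n x z) :
    n • x = 0 ∧ n • z = 0 := by
  obtain ⟨y, h1, h2⟩ := h
  exact ⟨h1.nsmul_eq_zero.1, h2.nsmul_eq_zero.1⟩

end Cg

end Fermat.Agent.TSide

end
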