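import Fermat.Agent.TSide.Good

/-!
# The comparison of torsion classes with level `m` commutes with the Hecke operators
-/

set_option autoImplicit false
set_option linter.unusedSectionVars false

open AlgebraicCurve WithZero Module
open scoped IntermediateField
open Fermat.Agent.RR Fermat.Agent.Deuring Fermat.Agent.FF Fermat.Agent.TwoComp
open Fermat.Agent.QX4 (Split exists_ord_eq_of_nsmul_eq_zero mk_eq_zero_iff)

noncomputable section

namespace Fermat.Agent.TSide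

/-- A correspondence: a multiplicative map on functions with a compatible endomorphism of the
divisor class group. -/
structure Corr (K F : Type*) [Field K] [Field F] [Algebra K F] where
  T : F →* F
  t : Pic0 K F →+ Pic0 K F
  spec : ∀ E : Divisor.degZero (K := K) (F := F), ∃ E' : Divisor.degZero (K := K) (F := F),
    t (Pic0.mk E) = Pic0.mk E' ∧ ∀ (n : ℕ) (f : F), f ≠ 0 →
      (∀ v : Place K F, v.ord f = n * (E : Divisor K F) v) →
        ∀ v : Place K F, v.ord (T f) = n * (E' : Divisor K F) v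

namespace Corr

variable {K F : Type*} [Field K] [Field F] [Algebra K F] (X : Corr K F)

theorem T_ne_zero {f : F} (hf : f ≠ 0) : X.T f ≠ 0 := by
  intro h
  have h1 : X.T (f * f⁻¹) = X.T f * X.T f⁻¹ := map_mul _ _ _
  rw [mul_inv_cancel₀ hf, map_one, h, zero_mul] at h1
  exact one_ne_zero h1

theorem ord_T_const {c : K} (hc : c ≠ 0) (v : Place K F) : v.ord (X.T (algebraMap K F c)) = 0 := by
  obtain ⟨E', -, h⟩ := X.spec 0
  have h1 := h 1 1 one_ne_zero (fun v => by rw [v.ord_one]; simp)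
  have h2 := h 1 (algebraMap K F c) ((_root_.map_ne_zero _).mpr hc)
    (fun v => by rw [QX4.ord_algebraMap_eq_zero v hc]; simp)
  rw [h2 v, ← h1 v, map_one, v.ord_one]

end Corr

variable {K F Fm k F' : Type*} [Field K] [Field Fm] [Algebra K Fm] [Field F] [Algebra K F]
    [Field k] [Field F'] [Algebra k F'] [IsAlgClosed K] [IsAlgClosed k] [IsFF K F] [IsFF K Fm]
    [IsFF k F'] {C : Comp K F k F'} {G : GaussData K Fm k F'}

theorem monoidHom_ne_zero {M N : Type*} [Field M] [Field N] (S : M →* N) {f : M} (hf : f ≠ 0) :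
    S f ≠ 0 := by
  intro h
  have h1 : S (f * f⁻¹) = S f * S f⁻¹ := map_mul _ _ _
  rw [mul_inv_cancel₀ hf, map_one, h, zero_mul] at h1
  exact one_ne_zero h1

theorem S_const (hsurj : Function.Surjective G.res) (Xm : Corr K Fm) (S : F' →* F')
    (hm : ∀ f g, (ofGauss G).RedF f g → (ofGauss G).RedF (Xm.T f) (S g)) {c : k} (hc : c ≠ 0) :
    ∃ d : k, d ≠ 0 ∧ S (algebraMap k F' c) = algebraMap k F' d := by
  obtain ⟨a, rfl⟩ := hsurj c
  have ha : (a : K) ≠ 0 := by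
    intro h
    have : a = 0 := Subtype.ext h
    rw [this, map_zero] at hc
    exact hc rfl
  have h1 : (ofGauss G).RedF (algebraMap K Fm a) (algebraMap k F' (G.res a)) :=
    ⟨(_root_.map_ne_zero _).mpr hc, (G.mem_O_iff a).mpr a.2, G.ρ_algebraMap a⟩
  have h2 := hm _ _ h1
  obtain ⟨b, hb⟩ := QX4.exists_const_of_ord_eq_zero h2.ne_zero (Xm.ord_T_const ha)
  rw [← hb] at h2
  exact Comp.redF_algebraMap h2

/-- **The comparison commutes with the Hecke operators.** -/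
theorem Cg.hecke (R : RedMap G) (hsurj : Function.Surjective G.res) {n : ℕ} (hn : n ≠ 0)
    (X : Corr K F) (Xm : Corr K Fm) (S : F' →* F')
    (hC : ∀ f g, C.RedF f g → C.RedF (X.T f) (S g))
    (hm : ∀ f g, (ofGauss G).RedF f g → (ofGauss G).RedF (Xm.T f) (S g))
    {x : Pic0 K F} {z : Pic0 K Fm} (h : Cg C G n x z) : Cg C G n (X.t x) (Xm.t z) := by
  have hn' : (n : ℤ) ≠ 0 := by exact_mod_cast hn
  have hnz := h.nsmul_eq_zero.2
  obtain ⟨y, ⟨E, f, E', g, rfl, rfl, h1, h2, h3⟩, Ez, fz, Ez', gz, rfl, hy, h1', h2', h3'⟩ := h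
  -- the representatives of the images
  obtain ⟨E₁, hE₁, hE₁'⟩ := X.spec E
  obtain ⟨Ez₁, hEz₁, hEz₁'⟩ := Xm.spec Ez
  have o1 := hE₁' n f h1.ne_zero h2
  have oz := hEz₁' n fz h1'.ne_zero h2'
  have r1 := hC f g h1
  have rz := hm fz gz h1'
  -- a reduction of `t z`
  have hz1 : n • Xm.t (Pic0.mk Ez) = 0 := by rw [← map_nsmul, hnz, map_zero]
  obtain ⟨y', E₂, f₂, E₂', g₂, hE₂, rfl, s1, s2, s3⟩ := exists_redC R hn hz1
  rw [hEz₁] at hE₂
  -- `f₂ = c (Tfz) hh ^ n`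
  obtain ⟨u, hu0, hu⟩ := (mk_eq_zero_iff (E₂ - Ez₁)).mp (by
    have : Pic0.mk (E₂ - Ez₁) = Pic0.mk E₂ - Pic0.mk Ez₁ := rfl
    rw [this, hE₂, sub_self])
  obtain ⟨c, hc0, u', hu'⟩ := Comp.exists_redF (C := ofGauss G) hu0
  have hcF : algebraMap K Fm c ≠ 0 := (_root_.map_ne_zero _).mpr hc0
  have hcu : algebraMap K Fm c * u ≠ 0 := mul_ne_zero hcF hu0
  have q0 : f₂ * (Xm.T fz)⁻¹ * ((algebraMap K Fm c * u) ^ n)⁻¹ ≠ 0 :=
    mul_ne_zero (mul_ne_zero s1.ne_zero (inv_ne_zero rz.ne_zero)) (inv_ne_zero (pow_ne_zero n hcu))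
  obtain ⟨d, hd⟩ := QX4.exists_const_of_ord_eq_zero (K := K) q0 (fun v => by
    rw [v.ord_mul (mul_ne_zero s1.ne_zero (inv_ne_zero rz.ne_zero))
      (inv_ne_zero (pow_ne_zero n hcu)), v.ord_mul s1.ne_zero (inv_ne_zero rz.ne_zero), v.ord_inv,
      v.ord_inv, ord_pow, v.ord_mul hcF hu0, QX4.ord_algebraMap_eq_zero v hc0, zero_add, s2, oz,
      ← hu, AddSubgroup.coe_sub, Finsupp.sub_apply]
    ring)
  have r3 := ((s1.mul rz.inv).mul (hu'.pow n).inv).congr hd.symm rfl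
  obtain ⟨e, he0, he⟩ := Comp.redF_algebraMap r3
  have hSgz : ∀ w : Place k F', w.ord (S gz) = n * ((E₂' : Divisor k F') w - w.ord u') := by
    intro w
    have h5 : w.ord (g₂ * (S gz)⁻¹ * (u' ^ n)⁻¹) = 0 := by
      rw [he, QX4.ord_algebraMap_eq_zero w he0]
    rw [w.ord_mul (mul_ne_zero s1.1 (inv_ne_zero rz.1)) (inv_ne_zero (pow_ne_zero n hu'.1)),
      w.ord_mul s1.1 (inv_ne_zero rz.1), w.ord_inv, w.ord_inv, ord_pow, s3] at h5
    linarith
  -- `g = e' gz w ^ n`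
  obtain ⟨t, ht0, ht⟩ := (mk_eq_zero_iff (E' - Ez')).mp (by
    have : Pic0.mk (E' - Ez') = Pic0.mk E' - Pic0.mk Ez' := rfl
    rw [this, hy, sub_self])
  have q1 : g * gz⁻¹ * (t ^ n)⁻¹ ≠ 0 :=
    mul_ne_zero (mul_ne_zero h1.1 (inv_ne_zero h1'.1)) (inv_ne_zero (pow_ne_zero n ht0))
  obtain ⟨e', he'⟩ := QX4.exists_const_of_ord_eq_zero (K := k) q1 (fun w => by
    rw [w.ord_mul (mul_ne_zero h1.1 (inv_ne_zero h1'.1)) (inv_ne_zero (pow_ne_zero n ht0)),
      w.ord_mul h1.1 (inv_ne_zero h1'.1), w.ord_inv, w.ord_inv, ord_pow, h3, h3', ← ht,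
      AddSubgroup.coe_sub, Finsupp.sub_apply]
    ring)
  have he'0 : e' ≠ 0 := by
    rintro rfl
    rw [map_zero] at he'
    exact q1 he'.symm
  have hg : g = algebraMap k F' e' * gz * t ^ n := by
    have hgz0 : gz ≠ 0 := h1'.1
    rw [he', mul_right_comm, inv_mul_cancel_right₀ (pow_ne_zero n ht0),
      inv_mul_cancel_right₀ hgz0]
  obtain ⟨d', hd'0, hd'⟩ := S_const hsurj Xm S hm he'0
  have hd'F : algebraMap k F' d' ≠ 0 := (_root_.map_ne_zero _).mpr hd'0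
  have hSt : S t ≠ 0 := monoidHom_ne_zero S ht0
  have hSgz0 : S gz ≠ 0 := rz.1
  have hSg : S g = algebraMap k F' d' * S gz * S t ^ n := by
    rw [hg, map_mul, map_mul, map_pow, hd']
  set D₁ : Divisor.degZero (K := k) (F := F') := ⟨_, Data.div_mem_degZero u'⟩ with hD₁
  set D₂ : Divisor.degZero (K := k) (F := F') := ⟨_, Data.div_mem_degZero (S t)⟩ with hD₂
  have m1 : Pic0.mk D₁ = 0 := by
    rw [mk_eq_zero_iff]; exact ⟨u', hu'.1, fun v => div_apply u' v⟩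
  have m2 : Pic0.mk D₂ = 0 := by
    rw [mk_eq_zero_iff]; exact ⟨S t, hSt, fun v => div_apply (S t) v⟩
  refine ⟨Pic0.mk E₂', ⟨E₁, X.T f, E₂' - D₁ + D₂, S g, hE₁, ?_, r1, o1, fun w => ?_⟩,
    ⟨Ez₁, Xm.T fz, E₂' - D₁, S gz, hEz₁, ?_, rz, oz, fun w => ?_⟩⟩
  · have : Pic0.mk (E₂' - D₁ + D₂) = Pic0.mk E₂' - Pic0.mk D₁ + Pic0.mk D₂ := rfl
    rw [this, m1, m2, sub_zero, add_zero]
  · rw [hSg, w.ord_mul (mul_ne_zero hd'F hSgz0) (pow_ne_zero n hSt), w.ord_mul hd'F hSgz0,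
      QX4.ord_algebraMap_eq_zero w hd'0, ord_pow, hSgz, AddSubgroup.coe_add, AddSubgroup.coe_sub,
      Finsupp.add_apply, Finsupp.sub_apply]
    change _ = (n : ℤ) * ((E₂' : Divisor k F') w - RR.div u' w + RR.div (S t) w)
    rw [div_apply, div_apply]
    ring
  · have : Pic0.mk (E₂' - D₁) = Pic0.mk E₂' - Pic0.mk D₁ := rfl
    rw [this, m1, sub_zero]
  · rw [hSgz, AddSubgroup.coe_sub, Finsupp.sub_apply]
    change _ = (n : ℤ) * ((E₂' : Divisor k F') w - RR.div u' w)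
    rw [div_apply]

end Fermat.Agent.TSide

end
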