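import Fermat.Agent.TwoComp.Full5
import Fermat.Agent.QX4.LevelUp

/-!
# Reduction of torsion classes at a component

`C : Comp K F k F'`: a valuation ring `O` of `F` with residue map `ρ : O → F'` over a valuation
ring `A` of the constants. `C.RedC n x y` : the class `x ∈ Pic⁰(F)[n]` has reduction
`y ∈ Pic⁰(F')[n]`.
-/

set_option autoImplicit false
set_option linter.unusedSectionVars false

open AlgebraicCurve WithZero Module
open scoped IntermediateField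
open Fermat.Agent.RR Fermat.Agent.Deuring Fermat.Agent.FF Fermat.Agent.TwoComp
open Fermat.Agent.QX4 (Split exists_ord_eq_of_nsmul_eq_zero mk_eq_zero_iff)

noncomputable section

namespace Fermat.Agent.TSide

/-- A component of the reduction. -/
structure Comp (K F k F' : Type*) [Field K] [Field F] [Algebra K F] [Field k] [Field F']
    [Algebra k F'] where
  A : ValuationSubring K
  res : A →+* k
  O : ValuationSubring F
  ρ : O →+* F'
  ρ_eq_zero_iff : ∀ x : O, ρ x = 0 ↔ (x : F) ∈ O.nonunits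
  mem_O_iff : ∀ a : K, algebraMap K F a ∈ O ↔ a ∈ A
  ρ_algebraMap : ∀ a : A, ρ ⟨algebraMap K F a, (mem_O_iff _).mpr a.2⟩ = algebraMap k F' (res a)
  scale : ∀ f : F, f ≠ 0 → ∃ c : K, c ≠ 0 ∧ ∃ h : algebraMap K F c * f ∈ O, ρ ⟨_, h⟩ ≠ 0

namespace Comp

variable {K F k F' : Type*} [Field K] [Field F] [Algebra K F] [Field k] [Field F']
    [Algebra k F'] (C : Comp K F k F')

/-- `f` is a unit at the component, with reduction `g`. -/
def RedF (f : F) (g : F') : Prop := g ≠ 0 ∧ ∃ hf : f ∈ C.O, C.ρ ⟨f, hf⟩ = g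

variable {C}

theorem RedF.ne_zero {f : F} {g : F'} (h : C.RedF f g) : f ≠ 0 := by
  obtain ⟨hg, hf, rfl⟩ := h
  rintro rfl
  exact hg (map_zero C.ρ)

theorem RedF.one : C.RedF 1 1 := ⟨one_ne_zero, C.O.one_mem, map_one C.ρ⟩

theorem RedF.mul {f f₂ : F} {g g₂ : F'} (h : C.RedF f g) (h₂ : C.RedF f₂ g₂) :
    C.RedF (f * f₂) (g * g₂) := by
  obtain ⟨hg, hf, rfl⟩ := h
  obtain ⟨hg₂, hf₂, rfl⟩ := h₂
  exact ⟨mul_ne_zero hg hg₂, C.O.mul_mem _ _ hf hf₂, map_mul C.ρ ⟨f, hf⟩ ⟨f₂, hf₂⟩⟩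

theorem inv_mem_of {x : C.O} (h : C.ρ x ≠ 0) : (x : F)⁻¹ ∈ C.O := by
  rw [ne_eq, C.ρ_eq_zero_iff, ValuationSubring.mem_nonunits_iff, not_lt] at h
  rw [← ValuationSubring.valuation_le_one_iff, map_inv₀]
  exact inv_le_one_of_one_le₀ h

theorem RedF.inv {f : F} {g : F'} (h : C.RedF f g) : C.RedF f⁻¹ g⁻¹ := by
  have hf0 := h.ne_zero
  obtain ⟨hg, hf, rfl⟩ := h
  have h1 : f⁻¹ ∈ C.O := inv_mem_of hg
  refine ⟨inv_ne_zero hg, h1, ?_⟩
  have h2 : C.ρ ⟨f, hf⟩ * C.ρ ⟨f⁻¹, h1⟩ = 1 := by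
    rw [← map_mul, ← map_one C.ρ]
    exact congrArg C.ρ (Subtype.ext (mul_inv_cancel₀ hf0))
  exact eq_inv_of_mul_eq_one_right h2

theorem RedF.pow {f : F} {g : F'} (h : C.RedF f g) (n : ℕ) : C.RedF (f ^ n) (g ^ n) := by
  induction n with
  | zero => simpa using RedF.one
  | succ n ih => rw [pow_succ, pow_succ]; exact ih.mul h

theorem RedF.unique {f : F} {g g₂ : F'} (h : C.RedF f g) (h₂ : C.RedF f g₂) : g = g₂ := by
  obtain ⟨-, hf, rfl⟩ := h
  obtain ⟨-, hf₂, rfl⟩ := h₂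
  rfl

theorem RedF.congr {f f₂ : F} {g g₂ : F'} (h : C.RedF f g) (hf : f = f₂) (hg : g = g₂) :
    C.RedF f₂ g₂ := by subst hf hg; exact h

/-- a unit constant reduces to a nonzero constant -/
theorem redF_algebraMap {c : K} {g : F'} (h : C.RedF (algebraMap K F c) g) :
    ∃ d : k, d ≠ 0 ∧ g = algebraMap k F' d := by
  obtain ⟨hg, hf, rfl⟩ := h
  have hc : c ∈ C.A := (C.mem_O_iff c).mp hf
  have h1 := C.ρ_algebraMap ⟨c, hc⟩
  refine ⟨C.res ⟨c, hc⟩, ?_, h1⟩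
  intro h0
  rw [h0, map_zero] at h1
  exact hg h1

theorem exists_redF {f : F} (hf : f ≠ 0) : ∃ c : K, c ≠ 0 ∧ ∃ g : F', C.RedF (algebraMap K F c * f) g := by
  obtain ⟨c, hc, h, h2⟩ := C.scale f hf
  exact ⟨c, hc, _, h2, h, rfl⟩

variable (C)

/-- The reduction of torsion classes. -/
def RedC (n : ℕ) (x : Pic0 K F) (y : Pic0 k F') : Prop :=
  ∃ (E : Divisor.degZero (K := K) (F := F)) (f : F)
    (E' : Divisor.degZero (K := k) (F := F')) (g : F'), x = Pic0.mk E ∧ y = Pic0.mk E' ∧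
    C.RedF f g ∧ (∀ v : Place K F, v.ord f = n * (E : Divisor K F) v) ∧
    ∀ w : Place k F', w.ord g = n * (E' : Divisor k F') w

variable {C}

theorem RedC.zero (n : ℕ) : C.RedC n 0 0 :=
  ⟨0, 1, 0, 1, rfl, rfl, RedF.one, fun v => by rw [v.ord_one]; simp,
    fun v => by rw [v.ord_one]; simp⟩

theorem RedC.add {n : ℕ} {x x₂ : Pic0 K F} {y y₂ : Pic0 k F'} (h : C.RedC n x y)
    (h₂ : C.RedC n x₂ y₂) : C.RedC n (x + x₂) (y + y₂) := by
  obtain ⟨E, f, E', g, rfl, rfl, h1, h2, h3⟩ := h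
  obtain ⟨E₂, f₂, E₂', g₂, rfl, rfl, h1₂, h2₂, h3₂⟩ := h₂
  refine ⟨E + E₂, f * f₂, E' + E₂', g * g₂, rfl, rfl, h1.mul h1₂, fun v => ?_, fun w => ?_⟩
  · rw [v.ord_mul h1.ne_zero h1₂.ne_zero, h2, h2₂, AddSubgroup.coe_add, Finsupp.add_apply, mul_add]
  · rw [w.ord_mul h1.1 h1₂.1, h3, h3₂, AddSubgroup.coe_add, Finsupp.add_apply, mul_add]

theorem RedC.neg {n : ℕ} {x : Pic0 K F} {y : Pic0 k F'} (h : C.RedC n x y) :
    C.RedC n (-x) (-y) := by
  obtain ⟨E, f, E', g, rfl, rfl, h1, h2, h3⟩ := h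
  refine ⟨-E, f⁻¹, -E', g⁻¹, rfl, rfl, h1.inv, fun v => ?_, fun w => ?_⟩
  · rw [v.ord_inv, h2, AddSubgroup.coe_neg, Finsupp.neg_apply]; ring
  · rw [w.ord_inv, h3, AddSubgroup.coe_neg, Finsupp.neg_apply]; ring

theorem RedC.sub {n : ℕ} {x x₂ : Pic0 K F} {y y₂ : Pic0 k F'} (h : C.RedC n x y)
    (h₂ : C.RedC n x₂ y₂) : C.RedC n (x - x₂) (y - y₂) := by
  rw [sub_eq_add_neg, sub_eq_add_neg]; exact h.add h₂.neg

theorem RedC.nsmul {n : ℕ} {x : Pic0 K F} {y : Pic0 k F'} (h : C.RedC n x y) (m : ℕ) :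
    C.RedC n (m • x) (m • y) := by
  induction m with
  | zero => simpa using RedC.zero n
  | succ m ih => rw [succ_nsmul, succ_nsmul]; exact ih.add h

/-- raising the level -/
theorem RedC.mul {n : ℕ} {x : Pic0 K F} {y : Pic0 k F'} (h : C.RedC n x y) (m : ℕ) :
    C.RedC (n * m) x y := by
  obtain ⟨E, f, E', g, rfl, rfl, h1, h2, h3⟩ := h
  refine ⟨E, f ^ m, E', g ^ m, rfl, rfl, h1.pow m, fun v => ?_, fun w => ?_⟩
  · rw [ord_pow, h2]; push_cast; ring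
  · rw [ord_pow, h3]; push_cast; ring

theorem RedC.nsmul_eq_zero {n : ℕ} {x : Pic0 K F} {y : Pic0 k F'} (h : C.RedC n x y) :
    n • x = 0 ∧ n • y = 0 := by
  obtain ⟨E, f, E', g, rfl, rfl, h1, h2, h3⟩ := h
  constructor
  · have : n • Pic0.mk E = Pic0.mk (n • E) := rfl
    rw [this, mk_eq_zero_iff]
    refine ⟨f, h1.ne_zero, fun v => ?_⟩
    rw [h2]; simp
  · have : n • Pic0.mk E' = Pic0.mk (n • E') := rfl
    rw [this, mk_eq_zero_iff]
    refine ⟨g, h1.1, fun v => ?_⟩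
    rw [h3]; simp

section Unique

variable [IsAlgClosed K] [IsFF K F]

/-- two functions with proportional divisors -/
theorem exists_const_mul {f g : F} (hf : f ≠ 0) (hg : g ≠ 0) {n : ℕ}
    (h : ∀ v : Place K F, v.ord f = n * v.ord g) : ∃ c : K, c ≠ 0 ∧ f = algebraMap K F c * g ^ n := by
  have h1 : ∀ v : Place K F, v.ord (f / g ^ n) = 0 := by
    intro v
    rw [div_eq_mul_inv, v.ord_mul hf (inv_ne_zero (pow_ne_zero n hg)), v.ord_inv, ord_pow, h v]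
    ring
  have h0 : f / g ^ n ≠ 0 := div_ne_zero hf (pow_ne_zero n hg)
  obtain ⟨c, hc⟩ := QX4.exists_const_of_ord_eq_zero h0 h1
  refine ⟨c, ?_, ?_⟩
  · rintro rfl
    rw [map_zero] at hc
    exact h0 hc.symm
  · rw [hc, div_mul_cancel₀ _ (pow_ne_zero n hg)]

theorem RedC.eq_zero {n : ℕ} (hn : n ≠ 0) {y : Pic0 k F'} (h : C.RedC n 0 y) : y = 0 := by
  obtain ⟨E, f, E', g, hx, rfl, h1, h2, h3⟩ := h
  obtain ⟨u, hu0, hu⟩ := (mk_eq_zero_iff E).mp hx.symm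
  obtain ⟨c, hc0, u', hu'⟩ := exists_redF (C := C) hu0
  have hcF : algebraMap K F c ≠ 0 := (_root_.map_ne_zero _).mpr hc0
  have hcu : algebraMap K F c * u ≠ 0 := mul_ne_zero hcF hu0
  obtain ⟨d, hd0, hd⟩ := exists_const_mul (K := K) h1.ne_zero hcu (n := n) (fun v => by
    rw [v.ord_mul hcF hu0, QX4.ord_algebraMap_eq_zero v hc0, zero_add, h2, hu])
  have h4 : C.RedF (algebraMap K F d) (g * (u' ^ n)⁻¹) := by
    refine (h1.mul (hu'.pow n).inv).congr ?_ rfl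
    rw [hd, mul_inv_cancel_right₀ (pow_ne_zero n hcu)]
  obtain ⟨e, he0, he⟩ := redF_algebraMap h4
  have hg : g = algebraMap k F' e * u' ^ n := by
    rw [← he, inv_mul_cancel_right₀ (pow_ne_zero n hu'.1)]
  rw [mk_eq_zero_iff]
  refine ⟨u', hu'.1, fun w => ?_⟩
  have h5 := h3 w
  rw [hg, w.ord_mul ((_root_.map_ne_zero _).mpr he0) (pow_ne_zero n hu'.1),
    QX4.ord_algebraMap_eq_zero w he0, zero_add, ord_pow] at h5
  have hn' : (n : ℤ) ≠ 0 := by exact_mod_cast hn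
  exact mul_left_cancel₀ hn' h5.symm

/-- The reduction is well defined. -/
theorem RedC.unique {n : ℕ} (hn : n ≠ 0) {x : Pic0 K F} {y y₂ : Pic0 k F'} (h : C.RedC n x y)
    (h₂ : C.RedC n x y₂) : y = y₂ := by
  have h1 := h.sub h₂
  rw [sub_self] at h1
  exact sub_eq_zero.mp (h1.eq_zero hn)

/-- lowering the level -/
theorem RedC.of_mul {n m : ℕ} (hm : m ≠ 0) {x : Pic0 K F} {y : Pic0 k F'}
    (h : C.RedC (n * m) x y) (hx : n • x = 0) : C.RedC n x y := by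
  obtain ⟨E, f, E', g, rfl, rfl, h1, h2, h3⟩ := h
  obtain ⟨u, hu0, hu⟩ := exists_ord_eq_of_nsmul_eq_zero hx
  obtain ⟨c, hc0, u', hu'⟩ := exists_redF (C := C) hu0
  have hcF : algebraMap K F c ≠ 0 := (_root_.map_ne_zero _).mpr hc0
  have hcu : algebraMap K F c * u ≠ 0 := mul_ne_zero hcF hu0
  have hord : ∀ v : Place K F, v.ord (algebraMap K F c * u) = n * (E : Divisor K F) v := fun v => by
    rw [v.ord_mul hcF hu0, QX4.ord_algebraMap_eq_zero v hc0, zero_add, hu]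
  obtain ⟨d, hd0, hd⟩ := exists_const_mul (K := K) h1.ne_zero hcu (n := m) (fun v => by
    rw [hord, h2]; push_cast; ring)
  have h4 : C.RedF (algebraMap K F d) (g * (u' ^ m)⁻¹) := by
    refine (h1.mul (hu'.pow m).inv).congr ?_ rfl
    rw [hd, mul_inv_cancel_right₀ (pow_ne_zero m hcu)]
  obtain ⟨e, he0, he⟩ := redF_algebraMap h4
  have hg : g = algebraMap k F' e * u' ^ m := by
    rw [← he, inv_mul_cancel_right₀ (pow_ne_zero m hu'.1)]
  refine ⟨E, _, E', u', rfl, rfl, hu', hord, fun w => ?_⟩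
  have h5 := h3 w
  rw [hg, w.ord_mul ((_root_.map_ne_zero _).mpr he0) (pow_ne_zero m hu'.1),
    QX4.ord_algebraMap_eq_zero w he0, zero_add, ord_pow] at h5
  have hm' : (m : ℤ) ≠ 0 := by exact_mod_cast hm
  apply mul_left_cancel₀ hm'
  rw [h5]; push_cast; ring

/-- Split classes are the classes with trivial reduction. -/
theorem split_iff [IsAlgClosed k] [IsFF k F'] {n : ℕ} (hn : 0 < n) {x : Pic0 K F} :
    Split C.O C.ρ n x ↔ C.RedC n x 0 := by
  constructor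
  · rintro ⟨E, f, hf, u, rfl, hu, ho, hr⟩
    have hdeg : RR.div u ∈ Divisor.degZero (K := k) (F := F') := Data.div_mem_degZero u
    refine ⟨E, f, ⟨_, hdeg⟩, u ^ n, rfl, ?_, ⟨pow_ne_zero n hu, hf, hr⟩, ho, fun w => ?_⟩
    · symm
      rw [mk_eq_zero_iff]
      exact ⟨u, hu, fun v => div_apply u v⟩
    · rw [ord_pow]
      change _ = (n : ℤ) * RR.div u w
      rw [div_apply]
  · rintro ⟨E, f, E', g, rfl, hy, h1, h2, h3⟩
    obtain ⟨u, hu0, hu⟩ := (mk_eq_zero_iff E').mp hy.symm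
    obtain ⟨w, hw0, hw⟩ := Data.exists_pow_eq hn h1.1 hu0 (fun w => by rw [h3, hu])
    obtain ⟨hg, hf, hr⟩ := h1
    exact ⟨E, f, hf, w, rfl, hw0, h2, hr.trans hw⟩

end Unique

end Comp

end Fermat.Agent.TSide

end
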