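import Fermat.Agent.TSide.Comps
import Fermat.Agent.TwoGauss.Uncond
import Fermat.Agent.QX4.NormHecke
import Fermat.Agent.TEll.HeckeDiv
import Fermat.Agent.HeckeComm.Galois

/-!
# The splitting map for `J₀(m q)` at `q`
-/

set_option autoImplicit false
set_option linter.unusedSectionVars false
set_option linter.style.haveILetI false

open ModularCurve HahnSeries Module AlgebraicCurve
open scoped IntermediateField
open Fermat.Agent.GaussVal Fermat.Agent.FF Fermat.Agent.RR Fermat.Agent.TEll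
open scoped Fermat.Agent.GaussVal
open Fermat.Agent.TwoGauss (wq)

noncomputable section

namespace Fermat.Agent.TSide

/-- the algebraic numbers -/
local notation "𝕂" => AlgebraicClosure ℚ

/-- the Hecke correspondence `T_ℓ` -/
def heckeCorr (N : ℕ) [NeZero N] (ℓ : Nat.Primes) : Corr 𝕂 (modularFunctionFieldBar N) :=
  haveI : NeZero (ℓ : ℕ) := ⟨ℓ.2.ne_zero⟩
  { T := TEll 𝕂 N ℓ
    t := (heckeOperatorBar N ℓ).toAddMonoidHom
    spec := fun E => by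
      obtain ⟨E', h1, h2⟩ := heckeOperatorBar_mk ℓ E
      refine ⟨E', h2, fun n f hf h v => ?_⟩
      have h3 : div f = n • (E : Divisor 𝕂 (modularFunctionFieldBar N)) := by
        ext v
        rw [div_apply, h, Finsupp.smul_apply, nsmul_eq_mul]
      have h4 := heckeDiv_div (ℓ := (ℓ : ℕ)) hf
      rw [h3, map_nsmul, ← h1] at h4
      have h5 := DFunLike.congr_fun h4 v
      rw [div_apply, Finsupp.smul_apply, nsmul_eq_mul] at h5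
      exact h5.symm }

theorem heckeCorr_t (N : ℕ) [NeZero N] (ℓ : Nat.Primes) (x : JZero N) :
    (heckeCorr N ℓ).t x = heckeOperatorBar N ℓ x := rfl

section Inst

variable {A : ValuationSubring (AlgebraicClosure ℚ)} {q m : ℕ} [NeZero m]
  [Fact q.Prime] [CharP (IsLocalRing.ResidueField A) q]
  (hq : q.Prime) (hm : ¬ q ∣ m) (hA : A.LiesOverPrime q)
  (H3 : S18aux.DegThm (IsLocalRing.ResidueField A) m)

/-- the residue field -/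
local notation "κ" => IsLocalRing.ResidueField A

include hq hA H3 in
/-- `T_ℓ` on functions preserves the function field of `X₀(m)` over the residue field. -/
theorem TSer_mem (ℓ : Nat.Primes) (hℓ : ¬ (ℓ : ℕ) ∣ m) (u : modularFunctionFieldFullC κ m) :
    haveI : NeZero (ℓ : ℕ) := ⟨ℓ.2.ne_zero⟩
    TSer κ ℓ (u : LaurentSeries κ) ∈ modularFunctionFieldFullC κ m := by
  haveI : NeZero (ℓ : ℕ) := ⟨ℓ.2.ne_zero⟩
  obtain ⟨⟨f, hf⟩, rfl⟩ := (TwoGauss.Gm hq hA H3).ρ_surj u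
  have h1 : ((TEll 𝕂 m ℓ f : modularFunctionFieldBar m) : LaurentSeries 𝕂) =
    TSer 𝕂 ℓ (f : LaurentSeries 𝕂) := coe_TEll_bar m ℓ ℓ.2 hℓ f
  have h2 : (TEll 𝕂 m ℓ f : modularFunctionFieldBar m) ∈ (TwoGauss.Gm hq hA H3).O := by
    rw [TwoGauss.mem_Gm_O, h1]
    exact TSer_mem_gaussSubring A ℓ hf
  have h3 := TwoGauss.coe_Gm_ρ hq hA H3 _ h2
  have h4 : TSer κ ℓ (((TwoGauss.Gm hq hA H3).ρ ⟨f, hf⟩ : modularFunctionFieldFullC κ m) :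
      LaurentSeries κ) = ((TwoGauss.Gm hq hA H3).ρ ⟨_, h2⟩ : LaurentSeries κ) := by
    rw [h3, TwoGauss.coe_Gm_ρ hq hA H3 f hf, ← gaussRed_TSer]
    congr 1
    exact Subtype.ext h1.symm
  rw [h4]
  exact ((TwoGauss.Gm hq hA H3).ρ ⟨_, h2⟩).2

/-- `T_ℓ` on functions in characteristic `q`. -/
def Sl (ℓ : Nat.Primes) (hℓ : ¬ (ℓ : ℕ) ∣ m) :
    modularFunctionFieldFullC κ m →* modularFunctionFieldFullC κ m :=
  haveI : NeZero (ℓ : ℕ) := ⟨ℓ.2.ne_zero⟩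
  { toFun := fun u => ⟨TSer κ ℓ (u : LaurentSeries κ), TSer_mem hq hA H3 ℓ hℓ u⟩
    map_one' := Subtype.ext (map_one (TSer κ ℓ))
    map_mul' := fun u v => Subtype.ext (map_mul (TSer κ ℓ) _ _) }

theorem coe_Sl (ℓ : Nat.Primes) (hℓ : ¬ (ℓ : ℕ) ∣ m) (u : modularFunctionFieldFullC κ m) :
    haveI : NeZero (ℓ : ℕ) := ⟨ℓ.2.ne_zero⟩
    ((Sl hq hA H3 ℓ hℓ u : modularFunctionFieldFullC κ m) : LaurentSeries κ) =
      TSer κ ℓ (u : LaurentSeries κ) := rfl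

theorem redF_Gm (ℓ : Nat.Primes) (hℓ : ¬ (ℓ : ℕ) ∣ m) (f : modularFunctionFieldBar m)
    (g : modularFunctionFieldFullC κ m) (h : (ofGauss (TwoGauss.Gm hq hA H3)).RedF f g) :
    (ofGauss (TwoGauss.Gm hq hA H3)).RedF ((heckeCorr m ℓ).T f) (Sl hq hA H3 ℓ hℓ g) := by
  haveI : NeZero (ℓ : ℕ) := ⟨ℓ.2.ne_zero⟩
  obtain ⟨hg, hf, rfl⟩ := h
  have h1 : ((TEll 𝕂 m ℓ f : modularFunctionFieldBar m) : LaurentSeries 𝕂) =
    TSer 𝕂 ℓ (f : LaurentSeries 𝕂) := coe_TEll_bar m ℓ ℓ.2 hℓ f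
  have h2 : (TEll 𝕂 m ℓ f : modularFunctionFieldBar m) ∈ (TwoGauss.Gm hq hA H3).O := by
    rw [TwoGauss.mem_Gm_O, h1]
    exact TSer_mem_gaussSubring A ℓ hf
  refine ⟨monoidHom_ne_zero _ hg, h2, Subtype.ext ?_⟩
  refine (TwoGauss.coe_Gm_ρ hq hA H3 _ h2).trans ?_
  rw [coe_Sl]
  refine Eq.trans ?_ (congrArg (TSer κ ℓ) (TwoGauss.coe_Gm_ρ hq hA H3 f hf)).symm
  rw [← gaussRed_TSer]
  congr 1
  exact Subtype.ext h1

variable (H2 : genusFF (AlgebraicClosure ℚ) (modularFunctionFieldBar m) ≤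
    genusFF (IsLocalRing.ResidueField A) (modularFunctionFieldFullC (IsLocalRing.ResidueField A) m))
  [IsAlgClosed (IsLocalRing.ResidueField A)] [PerfectRing (IsLocalRing.ResidueField A) q]
  [IsFF (AlgebraicClosure ℚ) (modularFunctionFieldBar (m * q))]
  [IsFF (AlgebraicClosure ℚ) (modularFunctionFieldBar m)]
  [IsFF (IsLocalRing.ResidueField A) (modularFunctionFieldFullC (IsLocalRing.ResidueField A) m)]

theorem redF_fst (ℓ : Nat.Primes) (hℓ : ¬ (ℓ : ℕ) ∣ m) (hℓ' : ¬ (ℓ : ℕ) ∣ m * q)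
    (f : modularFunctionFieldBar (m * q)) (g : modularFunctionFieldFullC κ m)
    (h : (comp₁ (TwoGauss.mkData hq hm hA H3 H2) hq.pos).RedF f g) :
    (comp₁ (TwoGauss.mkData hq hm hA H3 H2) hq.pos).RedF ((heckeCorr (m * q) ℓ).T f)
      (Sl hq hA H3 ℓ hℓ g) := by
  haveI : NeZero (ℓ : ℕ) := ⟨ℓ.2.ne_zero⟩
  obtain ⟨hg, hf, rfl⟩ := h
  have h1 : ((TEll 𝕂 (m * q) ℓ f : modularFunctionFieldBar (m * q)) : LaurentSeries 𝕂) =
    TSer 𝕂 ℓ (f : LaurentSeries 𝕂) := coe_TEll_bar (m * q) ℓ ℓ.2 hℓ' f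
  have hf' : (f : LaurentSeries 𝕂) ∈ gaussSubring A := hf
  have h2' : ((TEll 𝕂 (m * q) ℓ f : modularFunctionFieldBar (m * q)) : LaurentSeries 𝕂) ∈
      gaussSubring A := by
    rw [h1]
    exact TSer_mem_gaussSubring A ℓ hf'
  have h2 : (TEll 𝕂 (m * q) ℓ f : modularFunctionFieldBar (m * q)) ∈
      (TwoGauss.O₁ (m := m) hq hA) := h2'
  refine ⟨monoidHom_ne_zero _ hg, h2, Subtype.ext ?_⟩
  refine (TwoGauss.coe_ρ₁ hq hm hA H3 ⟨_, h2⟩).trans ?_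
  rw [coe_Sl]
  refine Eq.trans ?_ (congrArg (TSer κ ℓ) (TwoGauss.coe_ρ₁ hq hm hA H3 ⟨f, hf⟩)).symm
  change gaussRed A ⟨_, h2'⟩ = TSer κ ℓ (gaussRed A ⟨_, hf'⟩)
  rw [← gaussRed_TSer]
  congr 1
  exact Subtype.ext h1

theorem redF_snd_iff (f : modularFunctionFieldBar (m * q)) (g : modularFunctionFieldFullC κ m) :
    (comp₂ (TwoGauss.mkData hq hm hA H3 H2) hq.pos).RedF f g ↔
      (comp₁ (TwoGauss.mkData hq hm hA H3 H2) hq.pos).RedF (wq hq hm f) g := by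
  constructor
  · rintro ⟨hg, hf, h⟩
    have hf₂ : f ∈ TwoGauss.O₂ hq hm hA := hf
    have hf₁ : wq hq hm f ∈ TwoGauss.O₁ (m := m) hq hA := hf
    have e : TwoGauss.ρ₁ hq hm hA H3 ⟨wq hq hm f, hf₁⟩ = TwoGauss.ρ₂ hq hm hA H3 ⟨f, hf₂⟩ :=
      Subtype.ext ((TwoGauss.coe_ρ₁ hq hm hA H3 ⟨wq hq hm f, hf₁⟩).trans
        (TwoGauss.coe_ρ₂ hq hm hA H3 ⟨f, hf₂⟩).symm)
    exact ⟨hg, hf₁, e.trans h⟩
  · rintro ⟨hg, hf, h⟩
    have hf₁ : wq hq hm f ∈ TwoGauss.O₁ (m := m) hq hA := hf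
    have hf₂ : f ∈ TwoGauss.O₂ hq hm hA := hf₁
    have e : TwoGauss.ρ₁ hq hm hA H3 ⟨wq hq hm f, hf₁⟩ = TwoGauss.ρ₂ hq hm hA H3 ⟨f, hf₂⟩ :=
      Subtype.ext ((TwoGauss.coe_ρ₁ hq hm hA H3 ⟨wq hq hm f, hf₁⟩).trans
        (TwoGauss.coe_ρ₂ hq hm hA H3 ⟨f, hf₂⟩).symm)
    exact ⟨hg, hf₂, e.symm.trans h⟩

theorem redF_snd (ℓ : Nat.Primes) (hℓ : ¬ (ℓ : ℕ) ∣ m) (hℓ' : ¬ (ℓ : ℕ) ∣ m * q)
    (f : modularFunctionFieldBar (m * q)) (g : modularFunctionFieldFullC κ m)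
    (h : (comp₂ (TwoGauss.mkData hq hm hA H3 H2) hq.pos).RedF f g) :
    (comp₂ (TwoGauss.mkData hq hm hA H3 H2) hq.pos).RedF ((heckeCorr (m * q) ℓ).T f)
      (Sl hq hA H3 ℓ hℓ g) := by
  haveI : NeZero (ℓ : ℕ) := ⟨ℓ.2.ne_zero⟩
  rw [redF_snd_iff] at h ⊢
  have h1 := redF_fst hq hm hA H3 H2 ℓ hℓ hℓ' _ _ h
  have hc : Nat.Coprime q ℓ := by
    rw [Nat.coprime_primes hq ℓ.2]
    rintro rfl
    exact hℓ' (dvd_mul_left _ _)
  have h2 : (heckeCorr (m * q) ℓ).T (wq hq hm f) = wq hq hm ((heckeCorr (m * q) ℓ).T f) :=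
    QX4.TEll_wq hq hm hc f
  rwa [h2] at h1

end Inst

end Fermat.Agent.TSide

end
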